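import Mathlib

/-!
Congruences `X σ ≡ ε(σ) Y σ` modulo every `(p ^ n)`, phrased as in the Prelude, and their behaviour
under ring homomorphisms, injective pairs and limits.
-/

set_option autoImplicit false

noncomputable section

namespace Fermat.Agent.DefCond

open IsLocalRing

/-- The absolute Galois group of `ℚ`. -/
abbrev Gal : Type := AlgebraicClosure ℚ ≃ₐ[ℚ] AlgebraicClosure ℚ

/-- `σ` acts on the `p ^ n`-th roots of unity by the exponent `a`. -/
def ActsBy (p n : ℕ) (σ : Gal) (a : ℕ) : Prop :=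
  ∀ μ : AlgebraicClosure ℚ, μ ^ p ^ n = 1 → σ μ = μ ^ a

lemma ActsBy.mono {p N n : ℕ} {σ : Gal} {a : ℕ} (h : ActsBy p N σ a) (hn : n ≤ N) :
    ActsBy p n σ a := fun μ hμ => h μ <| by
  obtain ⟨d, rfl⟩ := Nat.exists_eq_add_of_le hn
  rw [pow_add, pow_mul, hμ, one_pow]

lemma exists_actsBy (p n : ℕ) [Fact p.Prime] (σ : Gal) : ∃ a, ActsBy p n σ a :=
  ⟨((cyclotomicCharacter (AlgebraicClosure ℚ) p
      (σ : AlgebraicClosure ℚ ≃+* AlgebraicClosure ℚ)).val.toZModPow n).val,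
    fun μ hμ => cyclotomicCharacter.spec p
      (σ : AlgebraicClosure ℚ ≃+* AlgebraicClosure ℚ) μ hμ⟩

lemma ActsBy.natCast_sub_mem {p n : ℕ} [Fact p.Prime] {σ : Gal} {a a' : ℕ} (h : ActsBy p n σ a)
    (h' : ActsBy p n σ a') (R : Type) [CommRing R] :
    (a : R) - a' ∈ Ideal.span {((p ^ n : ℕ) : R)} := by
  have : NeZero (p ^ n) := ⟨pow_ne_zero _ (Fact.out (p := p.Prime)).ne_zero⟩
  obtain ⟨μ, hμ⟩ := HasEnoughRootsOfUnity.exists_primitiveRoot (AlgebraicClosure ℚ) (p ^ n)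
  have e : μ ^ a = μ ^ a' := (h μ hμ.pow_eq_one).symm.trans (h' μ hμ.pow_eq_one)
  have hz : μ ^ ((a : ℤ) - a') = 1 := by
    rw [zpow_sub₀ (hμ.ne_zero (NeZero.ne _)), zpow_natCast, zpow_natCast, e,
      div_self (pow_ne_zero _ (hμ.ne_zero (NeZero.ne _)))]
  obtain ⟨d, hd⟩ := (hμ.zpow_eq_one_iff_dvd _).1 hz
  refine Ideal.mem_span_singleton'.2 ⟨(d : R), ?_⟩
  have := congrArg (Int.cast : ℤ → R) hd
  push_cast at this ⊢
  rw [this]; ring

/-- `X σ ≡ ε(σ) Y σ` modulo every `p ^ n`, for `σ` in `H`. -/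
def CycEq {R : Type} [CommRing R] (p : ℕ) (H : Set Gal) (X Y : Gal → R) : Prop :=
  ∀ σ ∈ H, ∀ n a : ℕ, ActsBy p n σ a → X σ - (a : R) * Y σ ∈ Ideal.span {((p ^ n : ℕ) : R)}

variable {R S T : Type} [CommRing R] [CommRing S] [CommRing T] {p : ℕ} {H : Set Gal}
  {X Y : Gal → R}

lemma CycEq.map (h : CycEq p H X Y) (φ : R →+* S) : CycEq p H (φ ∘ X) (φ ∘ Y) := by
  intro σ hσ n a ha
  have := Ideal.mem_map_of_mem φ (h σ hσ n a ha)
  rw [Ideal.map_span, Set.image_singleton, map_natCast, map_sub, map_mul, map_natCast] at this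
  exact this

lemma CycEq.congr {X' Y' : Gal → R} (h : CycEq p H X Y) (hX : ∀ σ ∈ H, X σ = X' σ)
    (hY : ∀ σ ∈ H, Y σ = Y' σ) : CycEq p H X' Y' := fun σ hσ n a ha => by
  rw [← hX σ hσ, ← hY σ hσ]; exact h σ hσ n a ha

/-- In a ring where `p` is nilpotent a congruence mod all `p ^ n` is an equality, so it is
reflected by jointly injective maps. -/
lemma CycEq.of_injective_pair [Fact p.Prime] (φ : R →+* S) (ψ : R →+* T)
    (hinj : Function.Injective fun x => (φ x, ψ x)) (hS : IsNilpotent (p : S))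
    (hT : IsNilpotent (p : T)) (h₁ : CycEq p H (φ ∘ X) (φ ∘ Y))
    (h₂ : CycEq p H (ψ ∘ X) (ψ ∘ Y)) : CycEq p H X Y := by
  intro σ hσ n a ha
  obtain ⟨N₁, hN₁⟩ := hS
  obtain ⟨N₂, hN₂⟩ := hT
  obtain ⟨a', ha'⟩ := exists_actsBy p (n + N₁ + N₂) σ
  have kill : ∀ {U : Type} [CommRing U] (χ : R →+* U) (N : ℕ), (p : U) ^ N = 0 →
      CycEq p H (χ ∘ X) (χ ∘ Y) → N ≤ n + N₁ + N₂ → χ (X σ - (a' : R) * Y σ) = 0 := by
    intro U _ χ N hN hc hle
    have hm := hc σ hσ (n + N₁ + N₂) a' ha'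
    obtain ⟨d, hd⟩ := Nat.exists_eq_add_of_le hle
    have hz : ((p ^ (n + N₁ + N₂) : ℕ) : U) = 0 := by
      rw [Nat.cast_pow, hd, pow_add, hN, zero_mul]
    rw [hz, Ideal.span_singleton_eq_bot.2 rfl, Ideal.mem_bot] at hm
    simpa using hm
  have e : X σ - (a' : R) * Y σ = 0 := hinj (Prod.ext
    (by simpa using kill φ N₁ hN₁ h₁ (by omega)) (by simpa using kill ψ N₂ hN₂ h₂ (by omega)))
  have e' : X σ - (a : R) * Y σ = ((a' : R) - a) * Y σ := by
    rw [sub_eq_zero.1 e]; ring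
  rw [e']
  exact Ideal.mul_mem_right _ _ ((ha'.mono (by omega)).natCast_sub_mem ha R)

/-- Krull intersection: ideals of a noetherian local ring are closed. -/
lemma mem_of_forall_mk_mem {A : Type} [CommRing A] [IsLocalRing A] [IsNoetherianRing A]
    (I : Ideal A) (x : A)
    (h : ∀ n : ℕ, Ideal.Quotient.mk (maximalIdeal A ^ (n + 1)) x ∈
      I.map (Ideal.Quotient.mk (maximalIdeal A ^ (n + 1)))) : x ∈ I := by
  by_cases hI : I = ⊤
  · simp [hI]
  have : Nontrivial (A ⧸ I) := Ideal.Quotient.nontrivial_iff.2 hI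
  have : IsLocalRing (A ⧸ I) :=
    IsLocalRing.of_surjective' (Ideal.Quotient.mk I) Ideal.Quotient.mk_surjective
  rw [← Ideal.Quotient.eq_zero_iff_mem]
  have hne : (maximalIdeal A).map (Ideal.Quotient.mk I) ≠ ⊤ := by
    intro htop
    have := congrArg (Ideal.comap (Ideal.Quotient.mk I)) htop
    rw [Ideal.comap_map_of_surjective _ Ideal.Quotient.mk_surjective, Ideal.comap_top,
      ← RingHom.ker_eq_comap_bot, Ideal.mk_ker, sup_eq_left.2 (IsLocalRing.le_maximalIdeal hI)]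
      at this
    exact (IsLocalRing.maximalIdeal.isMaximal A).ne_top this
  rw [← Ideal.mem_bot, ← Ideal.iInf_pow_eq_bot_of_isLocalRing _ hne, Ideal.mem_iInf]
  intro n
  refine Ideal.pow_le_pow_right (Nat.le_succ n) ?_
  rw [← Ideal.map_pow]
  have hx : x ∈ (I.map (Ideal.Quotient.mk (maximalIdeal A ^ (n + 1)))).comap
      (Ideal.Quotient.mk (maximalIdeal A ^ (n + 1))) := h n
  rw [Ideal.comap_map_of_surjective _ Ideal.Quotient.mk_surjective, ← RingHom.ker_eq_comap_bot,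
    Ideal.mk_ker] at hx
  obtain ⟨y, hy, z, hz, rfl⟩ := Submodule.mem_sup.1 hx
  rw [map_add, (Ideal.Quotient.eq_zero_iff_mem.2 hy), zero_add]
  exact Ideal.mem_map_of_mem _ hz

lemma eq_of_forall_mk_eq {A : Type} [CommRing A] [IsLocalRing A] [IsNoetherianRing A] {x y : A}
    (h : ∀ n : ℕ, Ideal.Quotient.mk (maximalIdeal A ^ (n + 1)) x =
      Ideal.Quotient.mk (maximalIdeal A ^ (n + 1)) y) : x = y := by
  rw [← sub_eq_zero, ← Ideal.mem_bot]
  exact mem_of_forall_mk_mem ⊥ _ fun n => by simp [h n]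

lemma CycEq.of_forall_quotient {A : Type} [CommRing A] [IsLocalRing A] [IsNoetherianRing A]
    {X Y : Gal → A}
    (h : ∀ n : ℕ, CycEq p H (Ideal.Quotient.mk (maximalIdeal A ^ (n + 1)) ∘ X)
      (Ideal.Quotient.mk (maximalIdeal A ^ (n + 1)) ∘ Y)) : CycEq p H X Y := by
  intro σ hσ n a ha
  refine mem_of_forall_mk_mem _ _ fun k => ?_
  rw [Ideal.map_span, Set.image_singleton, map_natCast, map_sub, map_mul, map_natCast]
  exact h k σ hσ n a ha

end Fermat.Agent.DefCond
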