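import Mathlib
import Fermat.Prelude.Def_GaloisRep_DeformationCondition
import Fermat.Prelude.Def_GaloisRep_LocalConditions
import Fermat.Agent.Deform.MatRep
import Fermat.Agent.DefCond.Cyclotomic

/-!
A convenient sufficient package (`Closed`) for `GaloisRep.IsDeformationCondition`, stable under
conjunctions, together with the basic conditions: cyclotomic determinant, unramified, unipotent.
-/

set_option autoImplicit false
set_option maxHeartbeats 400000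

noncomputable section

namespace Fermat.Agent.DefCond

open IsLocalRing Deform

section Quotient

variable {A : Type} [CommRing A] [IsLocalRing A]

lemma isLocalRing_quotient_pow (n : ℕ) : IsLocalRing (A ⧸ maximalIdeal A ^ (n + 1)) := by
  have : Nontrivial (A ⧸ maximalIdeal A ^ (n + 1)) := Ideal.Quotient.nontrivial_iff.2 fun h =>
    (IsLocalRing.maximalIdeal.isMaximal A).ne_top
      (top_le_iff.1 (h ▸ Ideal.pow_le_self (Nat.succ_ne_zero n)))
  exact IsLocalRing.of_surjective' (Ideal.Quotient.mk _) Ideal.Quotient.mk_surjective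

lemma isLocalHom_mk_pow (n : ℕ) [IsLocalRing (A ⧸ maximalIdeal A ^ (n + 1))] :
    IsLocalHom (Ideal.Quotient.mk (maximalIdeal A ^ (n + 1))) :=
  IsLocalHom.of_surjective _ Ideal.Quotient.mk_surjective

variable {𝒪 : Type} [CommRing 𝒪] [IsLocalRing 𝒪] [Algebra 𝒪 A]

omit [IsLocalRing 𝒪] in
lemma isArtinianTestAlgebra_quotient [IsNoetherianRing A] (n : ℕ)
    [IsLocalRing (A ⧸ maximalIdeal A ^ (n + 1))] (hloc : IsLocalHom (algebraMap 𝒪 A))
    (hres : Function.Surjective (residue A ∘ algebraMap 𝒪 A)) :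
    GaloisRep.IsArtinianTestAlgebra 𝒪 (A ⧸ maximalIdeal A ^ (n + 1)) := by
  have hmk := isLocalHom_mk_pow (A := A) n
  refine ⟨?_, ?_, ?_⟩
  · rw [IsScalarTower.algebraMap_eq 𝒪 A (A ⧸ maximalIdeal A ^ (n + 1))]
    exact RingHom.isLocalHom_comp _ _
  · intro y
    obtain ⟨x, rfl⟩ := residue_surjective y
    obtain ⟨x, rfl⟩ := Ideal.Quotient.mk_surjective x
    obtain ⟨r, hr⟩ := hres (residue A x)
    refine ⟨r, ?_⟩
    have := congrArg (ResidueField.map (Ideal.Quotient.mk (maximalIdeal A ^ (n + 1)))) hr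
    simpa [ResidueField.map_residue] using this
  · rw [isArtinianRing_iff_isNilpotent_maximalIdeal]
    refine ⟨n + 1, ?_⟩
    have hle : maximalIdeal (A ⧸ maximalIdeal A ^ (n + 1)) ≤
        (maximalIdeal A).map (Ideal.Quotient.mk (maximalIdeal A ^ (n + 1))) := by
      intro y hy
      obtain ⟨x, rfl⟩ := Ideal.Quotient.mk_surjective y
      refine Ideal.mem_map_of_mem _ ?_
      exact fun hu => hy (hu.map _)
    refine le_bot_iff.1 (le_trans (Ideal.pow_right_mono hle _) (le_of_eq ?_))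
    rw [← Ideal.map_pow, Ideal.map_quotient_self]

lemma isNilpotent_of_mem_maximalIdeal [IsArtinianRing A] {x : A} (hx : x ∈ maximalIdeal A) :
    IsNilpotent x := by
  obtain ⟨N, hN⟩ := (isArtinianRing_iff_isNilpotent_maximalIdeal A).1 inferInstance
  exact ⟨N, Ideal.mem_bot.1 (le_of_eq hN (Ideal.pow_mem_pow hx N))⟩

end Quotient

/-- A condition on representations, stated for every coefficient algebra. -/
abbrev Cond (𝒪 : Type) [CommRing 𝒪] : Type 1 :=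
  ∀ ⦃A : Type⦄ [CommRing A] [IsLocalRing A] [Algebra 𝒪 A], GaloisRepAdic A → Prop

variable {𝒪 : Type} [CommRing 𝒪] [IsLocalRing 𝒪]

/-- A package of closure properties implying `GaloisRep.IsDeformationCondition`. -/
structure Closed (𝒪 : Type) [CommRing 𝒪] [IsLocalRing 𝒪] (𝒟 : Cond 𝒪) : Prop where
  of_isEquiv : ∀ ⦃A : Type⦄ [CommRing A] [IsLocalRing A] [Algebra 𝒪 A] ⦃ρ ρ' : GaloisRepAdic A⦄,
    ρ.IsEquiv ρ' → 𝒟 ρ → 𝒟 ρ'
  push : ∀ ⦃A B : Type⦄ [CommRing A] [IsLocalRing A] [Algebra 𝒪 A]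
    [CommRing B] [IsLocalRing B] [Algebra 𝒪 B], GaloisRep.IsArtinianTestAlgebra 𝒪 B →
    ∀ (φ : A →ₐ[𝒪] B) (hφ : IsLocalHom (φ : A →+* B)) ⦃ρ : GaloisRepAdic A⦄,
      𝒟 ρ → 𝒟 (ρ.baseChangeAlong (φ : A →+* B) hφ)
  reflect : ∀ ⦃A B P : Type⦄ [CommRing A] [IsLocalRing A] [Algebra 𝒪 A]
    [CommRing B] [IsLocalRing B] [Algebra 𝒪 B] [CommRing P] [IsLocalRing P] [Algebra 𝒪 P],
    GaloisRep.IsArtinianTestAlgebra 𝒪 A → GaloisRep.IsArtinianTestAlgebra 𝒪 B →
    GaloisRep.IsArtinianTestAlgebra 𝒪 P →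
    ∀ (pA : P →ₐ[𝒪] A) (pB : P →ₐ[𝒪] B) (hpA : IsLocalHom (pA : P →+* A))
      (hpB : IsLocalHom (pB : P →+* B)), Function.Injective (fun x => (pA x, pB x)) →
      ∀ ⦃ρ : GaloisRepAdic P⦄, 𝒟 (ρ.baseChangeAlong (pA : P →+* A) hpA) →
        𝒟 (ρ.baseChangeAlong (pB : P →+* B) hpB) → 𝒟 ρ
  limit : ∀ ⦃A : Type⦄ [CommRing A] [IsLocalRing A] [IsNoetherianRing A] [Algebra 𝒪 A],
    IsLocalHom (algebraMap 𝒪 A) → Function.Surjective (residue A ∘ algebraMap 𝒪 A) →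
    ∀ ⦃ρ : GaloisRepAdic A⦄,
      (∀ (n : ℕ) [IsLocalRing (A ⧸ maximalIdeal A ^ (n + 1))]
        (hq : IsLocalHom ((Ideal.Quotient.mkₐ 𝒪 (maximalIdeal A ^ (n + 1))) :
          A →+* A ⧸ maximalIdeal A ^ (n + 1))),
        𝒟 (ρ.baseChangeAlong _ hq)) → 𝒟 ρ

theorem Closed.isDeformationCondition {𝒟 : Cond 𝒪} (h : Closed 𝒪 𝒟) :
    GaloisRep.IsDeformationCondition 𝒪 𝒟 where
  of_isEquiv _ _ _ _ _ _ _ he hρ := h.of_isEquiv he hρ
  baseChangeAlong _ _ _ _ _ _ _ _ _ hB φ hφ _ hρ := h.push hB φ hφ hρ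
  of_baseChangeAlong_injective _ _ _ _ _ _ _ _ hA hB φ hφ hinj _ hρ :=
    h.reflect hB hB hA φ φ hφ hφ (fun _ _ he => hinj (congrArg Prod.fst he)) hρ hρ
  of_fibreProduct _ _ _ _ _ _ _ _ _ _ _ _ _ _ _ _ hA hB _ hP _ _ pA pB hpA hpB _ hinj _ _ h₁ h₂ :=
    h.reflect hA hB hP pA pB hpA hpB hinj h₁ h₂
  iff_forall_surjective A _ _ _ _ _ hloc hres ρ := by
    refine ⟨fun hρ B _ _ _ hB q hq _ => h.push hB q hq hρ, fun hall => ?_⟩
    refine h.limit hloc hres fun n _ hq => ?_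
    exact hall (isArtinianTestAlgebra_quotient n hloc hres) _ hq Ideal.Quotient.mk_surjective

theorem Closed.and {𝒟 ℰ : Cond 𝒪} (h : Closed 𝒪 𝒟) (h' : Closed 𝒪 ℰ) :
    Closed 𝒪 (fun A _ _ _ ρ => 𝒟 ρ ∧ ℰ ρ) where
  of_isEquiv _ _ _ _ _ _ he hρ := ⟨h.of_isEquiv he hρ.1, h'.of_isEquiv he hρ.2⟩
  push _ _ _ _ _ _ _ _ hB φ hφ _ hρ := ⟨h.push hB φ hφ hρ.1, h'.push hB φ hφ hρ.2⟩
  reflect _ _ _ _ _ _ _ _ _ _ _ _ hA hB hP pA pB hpA hpB hinj _ h₁ h₂ :=
    ⟨h.reflect hA hB hP pA pB hpA hpB hinj h₁.1 h₂.1,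
      h'.reflect hA hB hP pA pB hpA hpB hinj h₁.2 h₂.2⟩
  limit _ _ _ _ _ hloc hres _ hall :=
    ⟨h.limit hloc hres fun n _ hq => (hall n hq).1, h'.limit hloc hres fun n _ hq => (hall n hq).2⟩

theorem Closed.forall {ι : Sort*} {𝒟 : ι → Cond 𝒪} (h : ∀ i, Closed 𝒪 (𝒟 i)) :
    Closed 𝒪 (fun A _ _ _ ρ => ∀ i, 𝒟 i ρ) where
  of_isEquiv _ _ _ _ _ _ he hρ i := (h i).of_isEquiv he (hρ i)
  push _ _ _ _ _ _ _ _ hB φ hφ _ hρ i := (h i).push hB φ hφ (hρ i)
  reflect _ _ _ _ _ _ _ _ _ _ _ _ hA hB hP pA pB hpA hpB hinj _ h₁ h₂ i :=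
    (h i).reflect hA hB hP pA pB hpA hpB hinj (h₁ i) (h₂ i)
  limit _ _ _ _ _ hloc hres _ hall i := (h i).limit hloc hres fun n _ hq => hall n hq i

/-- The base change of a basis. -/
def bcBasis {A B : Type} [CommRing A] [IsLocalRing A] [CommRing B] [IsLocalRing B] (φ : A →+* B)
    (hφ : IsLocalHom φ) {ρ : GaloisRepAdic A} (b : Module.Basis (Fin 2) A ρ.V) :
    Module.Basis (Fin 2) B (ρ.baseChangeAlong φ hφ).V :=
  letI : Algebra A B := φ.toAlgebra
  Algebra.TensorProduct.basis B b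

lemma matOf_bcBasis {A B : Type} [CommRing A] [IsLocalRing A] [CommRing B] [IsLocalRing B]
    (φ : A →+* B) (hφ : IsLocalHom φ) {ρ : GaloisRepAdic A} (b : Module.Basis (Fin 2) A ρ.V) :
    matOf (ρ.baseChangeAlong φ hφ) (bcBasis φ hφ b) = mapRep φ (matOf ρ b) := by
  letI : Algebra A B := φ.toAlgebra
  refine MonoidHom.ext fun σ => ?_
  exact LinearMap.toMatrix_baseChange (A := B) (ρ.ρ σ) b b

lemma matOf_map_equiv {A : Type} [CommRing A] [IsLocalRing A] {ρ ρ' : GaloisRepAdic A}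
    (e : GaloisRepAdic.Equiv ρ ρ') (b : Module.Basis (Fin 2) A ρ.V) :
    matOf ρ' (b.map e.toLinearEquiv) = matOf ρ b := by
  refine matRep_ext fun σ i j => ?_
  rw [matOf_apply, matOf_apply, LinearMap.toMatrix_apply, LinearMap.toMatrix_apply,
    Module.Basis.map_apply, ← e.map_apply σ]
  simp [Module.Basis.map]

/-- A matrix predicate, for every local ring. -/
abbrev MatPred : Type 1 := ∀ ⦃A : Type⦄ [CommRing A] [IsLocalRing A], MatRep A → Prop

/-- A condition detected by a matrix predicate with good functorial properties is closed. -/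
theorem Closed.of_matPred {𝒟 : Cond 𝒪} (Φ : MatPred)
    (hΦ : ∀ ⦃A : Type⦄ [CommRing A] [IsLocalRing A] [Algebra 𝒪 A] (ρ : GaloisRepAdic A)
      (b : Module.Basis (Fin 2) A ρ.V), 𝒟 ρ ↔ Φ (matOf ρ b))
    (hmap : ∀ ⦃A B : Type⦄ [CommRing A] [IsLocalRing A] [CommRing B] [IsLocalRing B]
      (φ : A →+* B), IsLocalHom φ → ∀ ⦃M : MatRep A⦄, Φ M → Φ (mapRep φ M))
    (hreflect : ∀ ⦃A B P : Type⦄ [CommRing A] [IsLocalRing A] [IsArtinianRing A]
      [CommRing B] [IsLocalRing B] [IsArtinianRing B] [CommRing P] [IsLocalRing P]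
      (φ : P →+* A) (ψ : P →+* B), IsLocalHom φ → IsLocalHom ψ →
      Function.Injective (fun x => (φ x, ψ x)) →
      ∀ ⦃M : MatRep P⦄, Φ (mapRep φ M) → Φ (mapRep ψ M) → Φ M)
    (hlimit : ∀ ⦃A : Type⦄ [CommRing A] [IsLocalRing A] [IsNoetherianRing A] ⦃M : MatRep A⦄,
      (∀ (n : ℕ) [IsLocalRing (A ⧸ maximalIdeal A ^ (n + 1))],
        Φ (mapRep (Ideal.Quotient.mk (maximalIdeal A ^ (n + 1))) M)) → Φ M) :
    Closed 𝒪 𝒟 where
  of_isEquiv A _ _ _ ρ ρ' he hρ := by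
    obtain ⟨e⟩ := he
    obtain ⟨b⟩ := finBasisV ρ
    rw [hΦ ρ' (b.map e.toLinearEquiv), matOf_map_equiv]
    exact (hΦ ρ b).1 hρ
  push A B _ _ _ _ _ _ hB φ hφ ρ hρ := by
    obtain ⟨b⟩ := finBasisV ρ
    rw [hΦ _ (bcBasis _ hφ b), matOf_bcBasis]
    exact hmap _ hφ ((hΦ ρ b).1 hρ)
  reflect A B P _ _ _ _ _ _ _ _ _ hA hB hP pA pB hpA hpB hinj ρ h₁ h₂ := by
    have := hA.isArtinian
    have := hB.isArtinian
    obtain ⟨b⟩ := finBasisV ρ
    rw [hΦ _ (bcBasis _ hpA b), matOf_bcBasis] at h₁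
    rw [hΦ _ (bcBasis _ hpB b), matOf_bcBasis] at h₂
    exact (hΦ ρ b).2 (hreflect _ _ hpA hpB hinj h₁ h₂)
  limit A _ _ _ _ hloc hres ρ hall := by
    obtain ⟨b⟩ := finBasisV ρ
    refine (hΦ ρ b).2 (hlimit fun n hn => ?_)
    have hq : IsLocalHom ((Ideal.Quotient.mkₐ 𝒪 (maximalIdeal A ^ (n + 1))) :
        A →+* A ⧸ maximalIdeal A ^ (n + 1)) := isLocalHom_mk_pow n
    have := (hΦ _ (bcBasis _ hq b)).1 (hall n hq)
    rwa [matOf_bcBasis] at this

section Helpers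

variable {A B P : Type} [CommRing A] [IsLocalRing A] [CommRing B] [IsLocalRing B]
  [CommRing P] [IsLocalRing P]

lemma natCast_mem_maximalIdeal_map {φ : A →+* B} (hφ : IsLocalHom φ) {p : ℕ}
    (h : (p : A) ∈ maximalIdeal A) : (p : B) ∈ maximalIdeal B := by
  rw [← map_natCast φ]; exact map_nonunit φ _ h

lemma natCast_mem_maximalIdeal_comap {φ : A →+* B} {p : ℕ} (h : (p : B) ∈ maximalIdeal B) :
    (p : A) ∈ maximalIdeal A :=
  fun hu => h (map_natCast φ p ▸ hu.map φ)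

omit [IsLocalRing A] [IsLocalRing B] [IsLocalRing P] in
lemma matrix_eq_of_injective_pair {φ : P →+* A} {ψ : P →+* B}
    (hinj : Function.Injective fun x => (φ x, ψ x)) {M N : Matrix (Fin 2) (Fin 2) P}
    (h₁ : φ.mapMatrix M = φ.mapMatrix N) (h₂ : ψ.mapMatrix M = ψ.mapMatrix N) : M = N :=
  Matrix.ext fun i j => hinj (Prod.ext (congrFun (congrFun h₁ i) j) (congrFun (congrFun h₂ i) j))

lemma matrix_eq_of_forall_quotient [IsNoetherianRing A] {M N : Matrix (Fin 2) (Fin 2) A}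
    (h : ∀ n : ℕ, (Ideal.Quotient.mk (maximalIdeal A ^ (n + 1))).mapMatrix M =
      (Ideal.Quotient.mk (maximalIdeal A ^ (n + 1))).mapMatrix N) : M = N :=
  Matrix.ext fun i j => eq_of_forall_mk_eq fun n => congrFun (congrFun (h n) i) j

end Helpers

/-- The determinant is cyclotomic. -/
theorem closed_detIsCyclotomic (p : ℕ) [Fact p.Prime] :
    Closed 𝒪 (fun A _ _ _ ρ => ρ.DetIsCyclotomic p) := by
  refine Closed.of_matPred (fun A _ _ M => (p : A) ∈ maximalIdeal A ∧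
    CycEq p Set.univ (fun σ => (M σ).det) 1) ?_ ?_ ?_ ?_
  · intro A _ _ _ ρ b
    refine and_congr_right fun _ => ⟨fun h σ _ n a ha => ?_, fun h n σ a ha => ?_⟩
    · have := h n σ a ha
      rw [← LinearMap.det_toMatrix b] at this
      simpa [matOf_apply] using this
    · have := h σ (Set.mem_univ σ) n a ha
      rw [← LinearMap.det_toMatrix b]
      simpa [matOf_apply] using this
  · intro A B _ _ _ _ φ hφ M h
    refine ⟨natCast_mem_maximalIdeal_map hφ h.1, (h.2.map φ).congr (fun σ _ => ?_) fun σ _ => ?_⟩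
    · exact φ.map_det (M σ)
    · simp
  · intro A B P _ _ _ _ _ _ _ _ φ ψ _ _ hinj M h₁ h₂
    refine ⟨natCast_mem_maximalIdeal_comap (φ := φ) h₁.1, CycEq.of_injective_pair φ ψ hinj
      (isNilpotent_of_mem_maximalIdeal h₁.1) (isNilpotent_of_mem_maximalIdeal h₂.1)
      (h₁.2.congr (fun σ _ => (φ.map_det (M σ)).symm) fun σ _ => by simp)
      (h₂.2.congr (fun σ _ => (ψ.map_det (M σ)).symm) fun σ _ => by simp)⟩
  · intro A _ _ _ M h
    have := isLocalRing_quotient_pow (A := A) 0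
    refine ⟨natCast_mem_maximalIdeal_comap
      (φ := Ideal.Quotient.mk (maximalIdeal A ^ (0 + 1))) (h 0).1, CycEq.of_forall_quotient fun n => ?_⟩
    have := isLocalRing_quotient_pow (A := A) n
    exact (h n).2.congr (fun σ _ => ((Ideal.Quotient.mk _).map_det (M σ)).symm) fun σ _ => by simp

/-- Unramified at `q`. -/
theorem closed_isUnramifiedAt (q : ℕ) :
    Closed 𝒪 (fun A _ _ _ ρ => ρ.IsUnramifiedAt q) := by
  refine Closed.of_matPred (fun A _ _ M => ∀ P : ValuationSubring (AlgebraicClosure ℚ),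
    P.LiesOverPrime q → ∀ σ ∈ P.inertiaSubgroupIn ℚ, M σ = 1) ?_ ?_ ?_ ?_
  · intro A _ _ _ ρ b
    refine forall₄_congr fun P _ σ _ => ?_
    exact (map_eq_one_iff (LinearMap.toMatrixAlgEquiv b)
      (LinearMap.toMatrixAlgEquiv b).injective).symm
  · intro A B _ _ _ _ φ _ M h P hP σ hσ
    exact (congrArg φ.mapMatrix (h P hP σ hσ)).trans (map_one _)
  · intro A B P _ _ _ _ _ _ _ _ φ ψ _ _ hinj M h₁ h₂ Q hQ σ hσ
    exact matrix_eq_of_injective_pair hinj ((h₁ Q hQ σ hσ).trans (map_one φ.mapMatrix).symm)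
      ((h₂ Q hQ σ hσ).trans (map_one ψ.mapMatrix).symm)
  · intro A _ _ _ M h P hP σ hσ
    refine matrix_eq_of_forall_quotient fun n => ?_
    have := isLocalRing_quotient_pow (A := A) n
    exact (h n P hP σ hσ).trans (map_one _).symm

/-- Unipotent on inertia at `q`. -/
theorem closed_isUnipotentOnInertiaAt (q : ℕ) :
    Closed 𝒪 (fun A _ _ _ ρ => ρ.IsUnipotentOnInertiaAt q) := by
  have key : ∀ {A B : Type} [CommRing A] [CommRing B] (φ : A →+* B)
      (M : Matrix (Fin 2) (Fin 2) A),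
      (φ.mapMatrix M).trace = φ M.trace ∧ (φ.mapMatrix M).det = φ M.det := fun φ M =>
    ⟨by simp [Matrix.trace], (φ.map_det M).symm⟩
  refine Closed.of_matPred (fun A _ _ M => ∀ P : ValuationSubring (AlgebraicClosure ℚ),
    P.LiesOverPrime q → ∀ σ ∈ P.inertiaSubgroupIn ℚ, (M σ).trace = 2 ∧ (M σ).det = 1) ?_ ?_ ?_ ?_
  · intro A _ _ _ ρ b
    refine forall₄_congr fun P _ σ _ => ?_
    rw [matOf_apply, ← LinearMap.charpoly_toMatrix (ρ.ρ σ) b, Matrix.charpoly_fin_two]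
    constructor
    · intro h
      have h1 := congrArg (fun f => Polynomial.coeff f 1) h
      have h0 := congrArg (fun f => Polynomial.coeff f 0) h
      simp [sub_sq, Polynomial.coeff_X, Polynomial.coeff_one] at h1 h0
      exact ⟨h1, (LinearMap.det_toMatrix b _).trans h0⟩
    · rintro ⟨h1, h0⟩
      rw [h1, h0, map_one, map_ofNat]
      ring
  · intro A B _ _ _ _ φ _ M h P hP σ hσ
    have := h P hP σ hσ
    exact ⟨(key φ (M σ)).1.trans (by rw [this.1, map_ofNat]),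
      (key φ (M σ)).2.trans (by rw [this.2, map_one])⟩
  · intro A B P _ _ _ _ _ _ _ _ φ ψ _ _ hinj M h₁ h₂ Q hQ σ hσ
    exact ⟨hinj (Prod.ext
        ((key φ (M σ)).1.symm.trans ((h₁ Q hQ σ hσ).1.trans (map_ofNat φ 2).symm))
        ((key ψ (M σ)).1.symm.trans ((h₂ Q hQ σ hσ).1.trans (map_ofNat ψ 2).symm))),
      hinj (Prod.ext
        ((key φ (M σ)).2.symm.trans ((h₁ Q hQ σ hσ).2.trans (map_one φ).symm))
        ((key ψ (M σ)).2.symm.trans ((h₂ Q hQ σ hσ).2.trans (map_one ψ).symm)))⟩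
  · intro A _ _ _ M h P hP σ hσ
    refine ⟨eq_of_forall_mk_eq fun n => ?_, eq_of_forall_mk_eq fun n => ?_⟩
    · have := isLocalRing_quotient_pow (A := A) n
      exact (key _ (M σ)).1.symm.trans ((h n P hP σ hσ).1.trans (map_ofNat _ 2).symm)
    · have := isLocalRing_quotient_pow (A := A) n
      exact (key _ (M σ)).2.symm.trans ((h n P hP σ hσ).2.trans (map_one _).symm)

end Fermat.Agent.DefCond
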