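import Mathlib
import Fermat.Prelude.Def_GaloisRep_Flat
import Fermat.Agent.DefCond.Basic
import Fermat.Agent.FFG.RatLocal
import Fermat.Agent.Tangent.Conditions

/-!
Flatness at `p` is closed under the operations of a deformation condition, from the closure of
finite flat models under subobjects, quotients and products.
-/

set_option autoImplicit false
set_option maxHeartbeats 400000
set_option linter.style.haveILetI false

noncomputable section

namespace Fermat.Agent.DefCond

open IsLocalRing Deform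
open scoped TensorProduct

variable {𝒪 : Type} [CommRing 𝒪] [IsLocalRing 𝒪]

lemma finite_residueField_of_surjective [Finite (ResidueField 𝒪)] {A : Type} [CommRing A]
    [IsLocalRing A] [Algebra 𝒪 A] (hloc : IsLocalHom (algebraMap 𝒪 A))
    (hres : Function.Surjective (residue A ∘ algebraMap 𝒪 A)) : Finite (ResidueField A) := by
  refine Finite.of_surjective (ResidueField.map (algebraMap 𝒪 A)) fun y => ?_
  obtain ⟨r, rfl⟩ := hres y
  exact ⟨residue 𝒪 r, ResidueField.map_residue _ r⟩

lemma finite_of_isArtinianTestAlgebra [Finite (ResidueField 𝒪)] {A : Type} [CommRing A]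
    [IsLocalRing A] [Algebra 𝒪 A] (hA : GaloisRep.IsArtinianTestAlgebra 𝒪 A) : Finite A := by
  have := hA.isArtinian
  have := finite_residueField_of_surjective hA.isLocalHom hA.residue_surjective
  obtain ⟨N, hN⟩ := (isArtinianRing_iff_isNilpotent_maximalIdeal A).1 inferInstance
  have h : Finite (A ⧸ (⊥ : Ideal A)) :=
    IsLocalRing.finite_quotient_iff.2 ⟨N, le_of_eq hN⟩
  exact Finite.of_equiv _ (RingEquiv.quotientBot A).toEquiv

lemma finite_quotient_bot {A : Type} [CommRing A] [Finite A] : Finite (A ⧸ (⊥ : Ideal A)) :=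
  Finite.of_surjective _ Ideal.Quotient.mk_surjective

section Levels

variable {A B : Type} [CommRing A] [IsLocalRing A] [CommRing B] [IsLocalRing B]

/-- Levels of a base change are quotients of finite powers of levels. -/
lemma hasFlatModelAt_baseChange_level {p : ℕ} [Finite B] (φ : A →+* B) (hφ : IsLocalHom φ)
    {ρ : GaloisRepAdic A} (h : ρ.IsFlatAt p) (I : Ideal B) :
    FFG.HasFlatModelAt p fun σ x => (ρ.baseChangeAlong φ hφ).levelAction I σ x := by
  letI : Algebra A B := φ.toAlgebra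
  have : Finite (B ⧸ I) := Finite.of_surjective _ Ideal.Quotient.mk_surjective
  have : Finite (A ⧸ I.comap φ) :=
    Finite.of_injective (Ideal.quotientMap I φ le_rfl) Ideal.quotientMap_injective
  have hM : FFG.HasFlatModelAt p fun σ x => ρ.levelAction (I.comap φ) σ x := h.2 _ inferInstance
  obtain ⟨n, ⟨e⟩⟩ := Finite.exists_equiv_fin B
  let T : Submodule B (B ⊗[A] ρ.V) := I • ⊤
  have hker : ∀ (c : B), I.comap φ • (⊤ : Submodule A ρ.V) ≤
      LinearMap.ker (((Submodule.mkQ T).restrictScalars A).comp (TensorProduct.mk A B ρ.V c)) := by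
    intro c
    refine Submodule.smul_le.2 fun a ha w _ => ?_
    simp only [LinearMap.mem_ker, LinearMap.comp_apply, TensorProduct.mk_apply,
      LinearMap.restrictScalars_apply, Submodule.mkQ_apply, Submodule.Quotient.mk_eq_zero]
    rw [TensorProduct.tmul_smul, ← algebraMap_smul B a (c ⊗ₜ[A] w)]
    exact Submodule.smul_mem_smul ha Submodule.mem_top
  let g : Fin n → (ρ.V ⧸ (I.comap φ • (⊤ : Submodule A ρ.V))) →ₗ[A] ((B ⊗[A] ρ.V) ⧸ T) :=
    fun i => Submodule.liftQ _ _ (hker (e.symm i))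
  let π : (Fin n → ρ.V ⧸ (I.comap φ • (⊤ : Submodule A ρ.V))) →ₗ[A] ((B ⊗[A] ρ.V) ⧸ T) :=
    ∑ i, (g i).comp (LinearMap.proj i)
  have hπ : ∀ x, π x = ∑ i, g i (x i) := fun x => by simp [π]
  refine (hM.finPow n).of_surjective π.toAddMonoidHom ?_ ?_
  · intro y
    obtain ⟨y, rfl⟩ := Submodule.mkQ_surjective T y
    induction y using TensorProduct.induction_on with
    | zero => exact ⟨0, π.toAddMonoidHom.map_zero.trans (map_zero T.mkQ).symm⟩
    | tmul c v =>
      refine ⟨Pi.single (e c) (Submodule.Quotient.mk v), ?_⟩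
      show π _ = _
      rw [hπ, Finset.sum_eq_single (e c)]
      · rw [Pi.single_eq_same]
        show Submodule.mkQ T ((e.symm (e c)) ⊗ₜ[A] v) = _
        rw [e.symm_apply_apply]
      · intro i _ hi
        rw [Pi.single_eq_of_ne hi, map_zero]
      · simp
    | add u v hu hv =>
      obtain ⟨x, hx⟩ := hu
      obtain ⟨z, hz⟩ := hv
      exact ⟨x + z, (π.toAddMonoidHom.map_add x z).trans
        ((congrArg₂ (· + ·) hx hz).trans (map_add T.mkQ u v).symm)⟩
  · intro σ x
    show π _ = (ρ.baseChangeAlong φ hφ).levelAction I σ (π x)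
    rw [hπ, hπ]
    refine Eq.trans (Finset.sum_congr rfl fun i _ => ?_) (map_sum _ _ _).symm
    obtain ⟨v, hv⟩ := Submodule.mkQ_surjective _ (x i)
    rw [← hv]
    rfl

/-- The map `v ↦ 1 ⊗ v` to a level of a base change. -/
def toLevel (φ : A →+* B) (hφ : IsLocalHom φ) (ρ : GaloisRepAdic A) (I : Ideal B) :
    ρ.V →+ (ρ.baseChangeAlong φ hφ).V ⧸ (I • (⊤ : Submodule B (ρ.baseChangeAlong φ hφ).V)) :=
  letI : Algebra A B := φ.toAlgebra
  (Submodule.mkQ _).toAddMonoidHom.comp (TensorProduct.mk A B ρ.V 1).toAddMonoidHom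

lemma toLevel_eq_zero_iff (φ : A →+* B) (hφ : IsLocalHom φ) (ρ : GaloisRepAdic A) (I : Ideal B)
    (v : ρ.V) : toLevel φ hφ ρ I v = 0 ↔ v ∈ I.comap φ • (⊤ : Submodule A ρ.V) := by
  letI : Algebra A B := φ.toAlgebra
  exact (Submodule.Quotient.mk_eq_zero _).trans
    (Tangent.one_tmul_mem_smul_top_iff I (Module.Free.chooseBasis A ρ.V) v)

lemma toLevel_equivariant (φ : A →+* B) (hφ : IsLocalHom φ) (ρ : GaloisRepAdic A) (I : Ideal B)
    (σ : Gal) (v : ρ.V) : toLevel φ hφ ρ I (ρ.ρ σ v) =
      (ρ.baseChangeAlong φ hφ).levelAction I σ (toLevel φ hφ ρ I v) := rfl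

end Levels

/-- Flatness at `p`. -/
theorem closed_isFlatAt [Finite (ResidueField 𝒪)] (p : ℕ) :
    Closed 𝒪 (fun A _ _ _ ρ => ρ.IsFlatAt p) where
  of_isEquiv _ _ _ _ _ _ he hρ := Tangent.isFlatAt_of_isEquiv he hρ
  push A B _ _ _ _ _ _ hB φ hφ ρ hρ := by
    have := finite_of_isArtinianTestAlgebra hB
    exact ⟨finite_residueField_of_surjective hB.isLocalHom hB.residue_surjective,
      fun I _ => hasFlatModelAt_baseChange_level _ hφ hρ I⟩
  reflect A B P _ _ _ _ _ _ _ _ _ hA hB hP pA pB hpA hpB hinj ρ h₁ h₂ := by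
    have := finite_of_isArtinianTestAlgebra hA
    have := finite_of_isArtinianTestAlgebra hB
    refine ⟨finite_residueField_of_surjective hP.isLocalHom hP.residue_surjective, fun I _ => ?_⟩
    have m₁ : FFG.HasFlatModelAt p _ := h₁.2 ⊥ finite_quotient_bot
    have m₂ : FFG.HasFlatModelAt p _ := h₂.2 ⊥ finite_quotient_bot
    let f := (toLevel (pA : P →+* A) hpA ρ ⊥).prod (toLevel (pB : P →+* B) hpB ρ ⊥)
    have hf : Function.Injective f := by
      refine (injective_iff_map_eq_zero f).2 fun v hv => ?_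
      obtain ⟨v1, v2⟩ := Prod.ext_iff.1 hv
      have m1 := (toLevel_eq_zero_iff _ hpA ρ ⊥ v).1 v1
      have m2 := (toLevel_eq_zero_iff _ hpB ρ ⊥ v).1 v2
      obtain ⟨b⟩ := finBasisV ρ
      refine b.repr.map_eq_zero_iff.1 (Finsupp.ext fun i => ?_)
      have hi : ∀ J : Ideal P, v ∈ J • (⊤ : Submodule P ρ.V) → b.repr v i ∈ J := fun J hJ => by
        have h3 := Submodule.mem_map_of_mem (f := b.coord i) hJ
        rw [Submodule.map_smul''] at h3
        exact Submodule.smul_le.mpr (fun a ha x _ => Ideal.mul_mem_right _ _ ha) h3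
      have e1 : pA (b.repr v i) = 0 := hi _ m1
      have e2 : pB (b.repr v i) = 0 := hi _ m2
      exact hinj (Prod.ext (by simpa using e1) (by simpa using e2))
    have mV : FFG.HasFlatModelAt p fun σ v => ρ.ρ σ v :=
      (m₁.prod m₂).of_injective f hf fun σ v => rfl
    exact mV.of_surjective (Submodule.mkQ (I • (⊤ : Submodule P ρ.V))).toAddMonoidHom
      (Submodule.mkQ_surjective _) fun σ v => rfl
  limit A _ _ _ _ hloc hres ρ hall := by
    have := finite_residueField_of_surjective hloc hres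
    refine ⟨this, fun I hI => ?_⟩
    obtain ⟨k, hk⟩ := IsLocalRing.finite_quotient_iff.1 hI
    have hle : maximalIdeal A ^ (k + 1) ≤ I := (Ideal.pow_le_pow_right (Nat.le_succ k)).trans hk
    have := isLocalRing_quotient_pow (A := A) k
    let q := Ideal.Quotient.mkₐ 𝒪 (maximalIdeal A ^ (k + 1))
    have hq : IsLocalHom (q : A →+* A ⧸ maximalIdeal A ^ (k + 1)) := isLocalHom_mk_pow k
    have hcomap : (I.map (q : A →+* A ⧸ maximalIdeal A ^ (k + 1))).comap
        (q : A →+* A ⧸ maximalIdeal A ^ (k + 1)) = I := by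
      show (I.map (Ideal.Quotient.mk _)).comap (Ideal.Quotient.mk _) = I
      rw [Ideal.comap_map_of_surjective _ Ideal.Quotient.mk_surjective, ← RingHom.ker_eq_comap_bot,
        Ideal.mk_ker, sup_eq_left]
      exact hle
    have : Finite (A ⧸ maximalIdeal A ^ (k + 1)) :=
      IsLocalRing.finite_quotient_iff.2 ⟨k + 1, le_rfl⟩
    have m : FFG.HasFlatModelAt p _ :=
      (hall k hq).2 (I.map (q : A →+* A ⧸ maximalIdeal A ^ (k + 1)))
        (Finite.of_surjective _ Ideal.Quotient.mk_surjective)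
    let g := toLevel (q : A →+* A ⧸ maximalIdeal A ^ (k + 1)) hq ρ
      (I.map (q : A →+* A ⧸ maximalIdeal A ^ (k + 1)))
    have hg : ∀ v, g v = 0 ↔ v ∈ I • (⊤ : Submodule A ρ.V) := fun v => by
      rw [toLevel_eq_zero_iff, hcomap]
    let f : (ρ.V ⧸ (I • (⊤ : Submodule A ρ.V))) →+ _ :=
      QuotientAddGroup.lift (I • (⊤ : Submodule A ρ.V)).toAddSubgroup g fun v hv => (hg v).2 hv
    refine m.of_injective f ?_ ?_
    · refine (injective_iff_map_eq_zero f).2 fun x hx => ?_
      obtain ⟨v, rfl⟩ := Submodule.mkQ_surjective _ x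
      exact (Submodule.Quotient.mk_eq_zero _).2 ((hg v).1 hx)
    · intro σ x
      obtain ⟨v, rfl⟩ := Submodule.mkQ_surjective _ x
      rfl

end Fermat.Agent.DefCond
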