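import Mathlib
import Fermat.Agent.DefCond.Basic
import Fermat.Agent.Galois.Unramified

/-!
Finiteness of the tangent space for conditions unramified outside a finite set, by Hermite.
-/

set_option autoImplicit false
set_option maxHeartbeats 400000
set_option linter.style.haveILetI false

noncomputable section

namespace Fermat.Agent.DefCond

open IsLocalRing Deform

section Hermite

variable {R : Type} [CommRing R] [IsLocalRing R]

/-- A matrix representation trivial on some finite level, unramified outside `S`, with values in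
a finite ring, is trivial on the fixed group of one level depending only on `S` and the ring. -/
lemma exists_uniform_level [Finite R] (S : Finset ℕ) :
    ∃ Lv : IntermediateField ℚ (AlgebraicClosure ℚ), FiniteDimensional ℚ Lv ∧
      ∀ M : MatRep R, (∃ L : IntermediateField ℚ (AlgebraicClosure ℚ), FiniteDimensional ℚ L ∧
          ∀ σ ∈ L.fixingSubgroup, M σ = 1) →
        (∀ q : ℕ, q.Prime → q ∉ S → ∀ P : ValuationSubring (AlgebraicClosure ℚ),
          P.LiesOverPrime q → ∀ σ ∈ P.inertiaSubgroupIn ℚ, M σ = 1) →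
        ∀ σ ∈ Lv.fixingSubgroup, M σ = 1 := by
  obtain ⟨Lv, hLv, -, hmax⟩ :=
    Galois.exists_level_of_bounded_index S (Nat.card (Matrix (Fin 2) (Fin 2) R))
  refine ⟨Lv, hLv, fun M ⟨L, hL, hLM⟩ hunr => ?_⟩
  have hle : L.fixingSubgroup ≤ M.ker := fun σ hσ => MonoidHom.mem_ker.2 (hLM σ hσ)
  have hcl : IsClosed (M.ker : Set Gal) :=
    Subgroup.isClosed_of_isOpen _ (Subgroup.isOpen_mono hle L.fixingSubgroup_isOpen)
  let F : IntermediateField ℚ (AlgebraicClosure ℚ) := IntermediateField.fixedField M.ker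
  have hFL : F ≤ L := by
    rw [← InfiniteGalois.fixedField_fixingSubgroup L]
    exact fun x hx σ => hx ⟨σ.1, hle σ.2⟩
  have : FiniteDimensional ℚ F :=
    Module.Finite.of_injective (IntermediateField.inclusion hFL).toLinearMap
      (IntermediateField.inclusion_injective hFL)
  have hfix : F.fixingSubgroup = M.ker :=
    InfiniteGalois.fixingSubgroup_fixedField ⟨M.ker, hcl⟩
  have hdeg : Module.finrank ℚ F ≤ Nat.card (Matrix (Fin 2) (Fin 2) R) := by
    rw [← AlgHom.card ℚ F (AlgebraicClosure ℚ), ← Nat.card_eq_fintype_card]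
    choose s hs using fun τ : F →ₐ[ℚ] AlgebraicClosure ℚ =>
      (⟨τ.liftNormal (AlgebraicClosure ℚ), fun x => τ.liftNormal_commutes _ x⟩ :
        ∃ g : AlgebraicClosure ℚ →ₐ[ℚ] AlgebraicClosure ℚ, ∀ x : F, g x = τ x)
    let e : (F →ₐ[ℚ] AlgebraicClosure ℚ) → Gal := fun τ =>
      AlgEquiv.ofBijective (s τ) (Algebra.IsAlgebraic.algHom_bijective (s τ))
    refine Nat.card_le_card_of_injective (fun τ => M (e τ)) fun τ τ' h => AlgHom.ext fun x => ?_
    have hm : (e τ')⁻¹ * e τ ∈ F.fixingSubgroup := by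
      rw [hfix, MonoidHom.mem_ker, map_mul, show M (e τ) = M (e τ') from h, ← map_mul,
        inv_mul_cancel, map_one]
    have h2 := (IntermediateField.mem_fixingSubgroup_iff _ _).1 hm x x.2
    rw [← hs τ x, ← hs τ' x]
    have h3 := congrArg (e τ') h2
    rw [← AlgEquiv.mul_apply, ← mul_assoc, mul_inv_cancel, one_mul] at h3
    exact h3
  intro σ hσ
  have hFLv : F ≤ Lv := hmax F inferInstance hdeg fun q hq hqS P hP τ hτ => by
    rw [hfix]
    exact MonoidHom.mem_ker.2 (hunr q hq hqS P hP τ hτ)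
  have : σ ∈ F.fixingSubgroup := (IntermediateField.mem_fixingSubgroup_iff _ _).2 fun x hx =>
    (IntermediateField.mem_fixingSubgroup_iff _ _).1 hσ x (hFLv hx)
  rw [hfix] at this
  exact MonoidHom.mem_ker.1 this

/-- There are finitely many matrix representations of the kind of `exists_uniform_level`. -/
lemma finite_setOf_matRep [Finite R] (S : Finset ℕ) :
    {M : MatRep R | (∃ L : IntermediateField ℚ (AlgebraicClosure ℚ), FiniteDimensional ℚ L ∧
          ∀ σ ∈ L.fixingSubgroup, M σ = 1) ∧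
        ∀ q : ℕ, q.Prime → q ∉ S → ∀ P : ValuationSubring (AlgebraicClosure ℚ),
          P.LiesOverPrime q → ∀ σ ∈ P.inertiaSubgroupIn ℚ, M σ = 1}.Finite := by
  obtain ⟨Lv, hLv, hM⟩ := exists_uniform_level (R := R) S
  have : Finite (Gal ⧸ Lv.fixingSubgroup) :=
    Subgroup.quotient_finite_of_isOpen _ Lv.fixingSubgroup_isOpen
  refine Set.finite_coe_iff.1 (Finite.of_injective
    (β := Gal ⧸ Lv.fixingSubgroup → Matrix (Fin 2) (Fin 2) R)
    (fun M x => M.1 x.out) fun M N h => Subtype.ext (MonoidHom.ext fun σ => ?_))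
  obtain ⟨τ, hτ⟩ := QuotientGroup.mk_out_eq_mul Lv.fixingSubgroup σ
  have h2 : M.1 (σ * (τ : Gal)) = N.1 (σ * (τ : Gal)) := hτ ▸ congrFun h (σ : Gal ⧸ _)
  rwa [map_mul, map_mul, hM _ M.2.1 M.2.2 _ τ.2, hM _ N.2.1 N.2.2 _ τ.2, mul_one, mul_one] at h2

end Hermite

/-- A condition that forces unramifiedness outside a finite set has finite tangent space. -/
theorem tangentFinite_of_unramified {𝒪 : Type} [CommRing 𝒪] [IsLocalRing 𝒪]
    [Finite (ResidueField 𝒪)] (ρbar : ResidualGaloisRep (ResidueField 𝒪)) (S : Finset ℕ)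
    (𝒟 : Cond 𝒪)
    (h : ∀ ⦃A : Type⦄ [CommRing A] [IsLocalRing A] [Algebra 𝒪 A] (ρ : GaloisRepAdic A), 𝒟 ρ →
      ∀ q : ℕ, q.Prime → q ∉ S → ρ.IsUnramifiedAt q) :
    GaloisRep.TangentFinite 𝒪 ρbar 𝒟 := by
  unfold GaloisRep.TangentFinite
  letI : Algebra 𝒪 (DualNumber (ResidueField 𝒪)) :=
    ((algebraMap (ResidueField 𝒪) (DualNumber (ResidueField 𝒪))).comp
      (algebraMap 𝒪 (ResidueField 𝒪))).toAlgebra
  have : Finite (DualNumber (ResidueField 𝒪)) :=
    inferInstanceAs (Finite (ResidueField 𝒪 × ResidueField 𝒪))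
  have : IsArtinianRing (DualNumber (ResidueField 𝒪)) := inferInstance
  let bas : (ρ : GaloisRepAdic (DualNumber (ResidueField 𝒪))) →
      Module.Basis (Fin 2) (DualNumber (ResidueField 𝒪)) ρ.V := fun ρ => (finBasisV ρ).some
  have hmem : ∀ ρ : GaloisRepAdic (DualNumber (ResidueField 𝒪)), 𝒟 ρ →
      matOf ρ (bas ρ) ∈ {M : MatRep (DualNumber (ResidueField 𝒪)) |
        (∃ L : IntermediateField ℚ (AlgebraicClosure ℚ), FiniteDimensional ℚ L ∧
          ∀ σ ∈ L.fixingSubgroup, M σ = 1) ∧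
        ∀ q : ℕ, q.Prime → q ∉ S → ∀ P : ValuationSubring (AlgebraicClosure ℚ),
          P.LiesOverPrime q → ∀ σ ∈ P.inertiaSubgroupIn ℚ, M σ = 1} := by
    intro ρ hρ
    obtain ⟨N, hN⟩ := (isArtinianRing_iff_isNilpotent_maximalIdeal _).1
      (inferInstance : IsArtinianRing (DualNumber (ResidueField 𝒪)))
    obtain ⟨L, hL, hLσ⟩ := isContRep_matOf ρ (bas ρ) N
    refine ⟨⟨L, hL, fun σ hσ => ?_⟩, fun q hq hqS P hP σ hσ => ?_⟩
    · refine sub_eq_zero.1 (Matrix.ext fun i j => ?_)
      have := hLσ σ (fun x hx => (IntermediateField.mem_fixingSubgroup_iff _ _).1 hσ x hx) i j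
      rw [hN] at this
      exact Ideal.mem_bot.1 this
    · rw [matOf_apply, h ρ hρ q hq hqS P hP σ hσ, LinearMap.toMatrix_one]
  have := (finite_setOf_matRep (R := DualNumber (ResidueField 𝒪)) S).to_subtype
  refine Finite.of_injective (fun x => (⟨_, hmem _ x.out.2.1⟩ :
    {M : MatRep (DualNumber (ResidueField 𝒪)) // _})) fun x y hxy => ?_
  rw [← Quotient.out_equiv_out]
  exact isEquiv_of_toMatrix_eq (bas _) (bas _) fun σ =>
    DFunLike.congr_fun (congrArg Subtype.val hxy) σ

end Fermat.Agent.DefCond
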