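import Fermat.Agent.DefCond.StrictOrd
import Fermat.Agent.DefCond.Flat
import Fermat.Agent.DefCond.TangentFinite

/-!
The Prelude's deformation conditions are deformation conditions with finite tangent space.
-/

set_option autoImplicit false

noncomputable section

namespace Fermat.Agent.DefCond

open IsLocalRing

variable {𝒪 : Type} [CommRing 𝒪] [IsLocalRing 𝒪] [Finite (ResidueField 𝒪)]
  (p : ℕ) [Fact p.Prime]

omit [Finite (ResidueField 𝒪)] [Fact p.Prime] in
lemma closed_unramifiedOutside (S : Finset ℕ) :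
    Closed 𝒪 (fun A _ _ _ ρ => ∀ q : ℕ, q.Prime → q ∉ S → ρ.IsUnramifiedAt q) :=
  Closed.forall fun q => Closed.forall fun _ => Closed.forall fun _ => closed_isUnramifiedAt q

omit [Finite (ResidueField 𝒪)] [Fact p.Prime] in
lemma closed_unipotentOn (T : Finset ℕ) :
    Closed 𝒪 (fun A _ _ _ ρ => ∀ q ∈ T, q.Prime → q ≠ p → ρ.IsUnipotentOnInertiaAt q) :=
  Closed.forall fun q => Closed.forall fun _ => Closed.forall fun _ => Closed.forall fun _ =>
    closed_isUnipotentOnInertiaAt q

theorem closed_flatCondition (S : Finset ℕ) : Closed 𝒪 (GaloisRep.flatCondition 𝒪 p S) :=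
  (closed_detIsCyclotomic p).and ((closed_isFlatAt p).and (closed_unramifiedOutside S))

omit [Finite (ResidueField 𝒪)] in
theorem closed_strictOrdinaryCondition (hp2 : p ≠ 2) (S : Finset ℕ) :
    Closed 𝒪 (GaloisRep.strictOrdinaryCondition 𝒪 p S) :=
  (closed_detIsCyclotomic p).and
    ((closed_isStrictOrdinaryAt p hp2).and (closed_unramifiedOutside S))

/-- `flatCondition` is a deformation condition. -/
theorem isDeformationCondition_flat (S : Finset ℕ) :
    GaloisRep.IsDeformationCondition 𝒪 (GaloisRep.flatCondition 𝒪 p S) :=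
  (closed_flatCondition p S).isDeformationCondition

omit [Finite (ResidueField 𝒪)] in
/-- `strictOrdinaryCondition` is a deformation condition. -/
theorem isDeformationCondition_strictOrdinary (hp2 : p ≠ 2) (S : Finset ℕ) :
    GaloisRep.IsDeformationCondition 𝒪 (GaloisRep.strictOrdinaryCondition 𝒪 p S) :=
  (closed_strictOrdinaryCondition p hp2 S).isDeformationCondition

/-- `flatCondition` with unipotent inertia on a subset. -/
theorem isDeformationCondition_flat_unipotent (S T : Finset ℕ) :
    GaloisRep.IsDeformationCondition 𝒪 (fun _A _ _ _ ρ => GaloisRep.flatCondition 𝒪 p S ρ ∧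
      ∀ q ∈ T, q.Prime → q ≠ p → ρ.IsUnipotentOnInertiaAt q) :=
  ((closed_flatCondition p S).and (closed_unipotentOn p T)).isDeformationCondition

omit [Finite (ResidueField 𝒪)] in
/-- `strictOrdinaryCondition` with unipotent inertia on a subset. -/
theorem isDeformationCondition_strictOrdinary_unipotent (hp2 : p ≠ 2) (S T : Finset ℕ) :
    GaloisRep.IsDeformationCondition 𝒪 (fun _A _ _ _ ρ =>
      GaloisRep.strictOrdinaryCondition 𝒪 p S ρ ∧
        ∀ q ∈ T, q.Prime → q ≠ p → ρ.IsUnipotentOnInertiaAt q) :=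
  ((closed_strictOrdinaryCondition p hp2 S).and (closed_unipotentOn p T)).isDeformationCondition

theorem isDeformationCondition_minimalFlat (S : Finset ℕ) :
    GaloisRep.IsDeformationCondition 𝒪 (GaloisRep.minimalFlatCondition 𝒪 p S) :=
  isDeformationCondition_flat_unipotent p S S

omit [Finite (ResidueField 𝒪)] in
theorem isDeformationCondition_minimalStrictOrdinary (hp2 : p ≠ 2) (S : Finset ℕ) :
    GaloisRep.IsDeformationCondition 𝒪 (GaloisRep.minimalStrictOrdinaryCondition 𝒪 p S) :=
  isDeformationCondition_strictOrdinary_unipotent p hp2 S S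

variable (ρbar : ResidualGaloisRep (ResidueField 𝒪))

omit [Fact p.Prime] in
theorem tangentFinite_flat (S : Finset ℕ) :
    GaloisRep.TangentFinite 𝒪 ρbar (GaloisRep.flatCondition 𝒪 p S) :=
  tangentFinite_of_unramified ρbar S _ fun _ _ _ _ _ h => h.2.2

omit [Fact p.Prime] in
theorem tangentFinite_strictOrdinary (S : Finset ℕ) :
    GaloisRep.TangentFinite 𝒪 ρbar (GaloisRep.strictOrdinaryCondition 𝒪 p S) :=
  tangentFinite_of_unramified ρbar S _ fun _ _ _ _ _ h => h.2.2

omit [Fact p.Prime] in
theorem tangentFinite_flat_unipotent (S T : Finset ℕ) :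
    GaloisRep.TangentFinite 𝒪 ρbar (fun _A _ _ _ ρ => GaloisRep.flatCondition 𝒪 p S ρ ∧
      ∀ q ∈ T, q.Prime → q ≠ p → ρ.IsUnipotentOnInertiaAt q) :=
  tangentFinite_of_unramified ρbar S _ fun _ _ _ _ _ h => h.1.2.2

omit [Fact p.Prime] in
theorem tangentFinite_strictOrdinary_unipotent (S T : Finset ℕ) :
    GaloisRep.TangentFinite 𝒪 ρbar (fun _A _ _ _ ρ =>
      GaloisRep.strictOrdinaryCondition 𝒪 p S ρ ∧
        ∀ q ∈ T, q.Prime → q ≠ p → ρ.IsUnipotentOnInertiaAt q) :=
  tangentFinite_of_unramified ρbar S _ fun _ _ _ _ _ h => h.1.2.2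

omit [Fact p.Prime] in
theorem tangentFinite_minimalFlat (S : Finset ℕ) :
    GaloisRep.TangentFinite 𝒪 ρbar (GaloisRep.minimalFlatCondition 𝒪 p S) :=
  tangentFinite_flat_unipotent p ρbar S S

omit [Fact p.Prime] in
theorem tangentFinite_minimalStrictOrdinary (S : Finset ℕ) :
    GaloisRep.TangentFinite 𝒪 ρbar (GaloisRep.minimalStrictOrdinaryCondition 𝒪 p S) :=
  tangentFinite_strictOrdinary_unipotent p ρbar S S

end Fermat.Agent.DefCond
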