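import Mathlib
import Fermat.Prelude.Def_GaloisRep_StrictOrdinary
import Fermat.Agent.DefCond.Basic
import Fermat.Agent.Galois.Cyclotomic

/-!
Strict ordinarity at an odd prime `p` as a system of matrix equations, and its closure properties.

An inertia element `σ₀` acting by `-1` on `μ_p` makes the ordinary line the image of
`ρ σ₀ - 1`, so the line descends along injective maps.
-/

set_option autoImplicit false
set_option maxHeartbeats 400000

noncomputable section

namespace Fermat.Agent.DefCond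

open IsLocalRing Deform

/-- Inertia at `p` contains an element acting on `μ_p` by `p - 1`. -/
lemma exists_inertia_actsBy_neg_one (p : ℕ) [Fact p.Prime]
    {P : ValuationSubring (AlgebraicClosure ℚ)} (hP : P.LiesOverPrime p) :
    ∃ σ₀ ∈ P.inertiaSubgroupIn ℚ, ActsBy p 1 σ₀ (p - 1) := by
  have : NeZero (p ^ 1) := ⟨pow_ne_zero _ (Fact.out (p := p.Prime)).ne_zero⟩
  have hn := HasEnoughRootsOfUnity.natCard_rootsOfUnity (AlgebraicClosure ℚ) (p ^ 1)
  obtain ⟨σ₀, hσ₀, hu⟩ :=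
    Galois.exists_inertia_modularCyclotomicCharacter_eq hP Fact.out 1 hn (-1)
  refine ⟨σ₀, hσ₀, fun μ hμ => ?_⟩
  have hspec := modularCyclotomicCharacter.spec (AlgebraicClosure ℚ) hn
    (σ₀ : AlgebraicClosure ℚ ≃+* AlgebraicClosure ℚ) (rootsOfUnity.mkOfPowEq μ hμ).2
  rw [hu] at hspec
  have hval : ((-1 : (ZMod (p ^ 1))ˣ) : ZMod (p ^ 1)).val = p - 1 := by
    have h2 : 2 ≤ p ^ 1 := by rw [pow_one]; exact (Fact.out (p := p.Prime)).two_le
    have : Fact (1 < p ^ 1) := ⟨by omega⟩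
    rw [Units.val_neg, Units.val_one, ZMod.val_neg_of_ne_zero, ZMod.val_one]
    rw [pow_one]
  rw [hval] at hspec
  simpa using hspec

variable {A : Type} [CommRing A]

/-- The equations cutting out strict ordinarity, for a chosen inertia element `σ₀`. -/
structure StrictEqAt (p : ℕ) (P : ValuationSubring (AlgebraicClosure ℚ)) (M : MatRep A)
    (σ₀ : Gal) : Prop where
  isUnit_trace : IsUnit (M σ₀ - 1).trace
  sq : (M σ₀ - 1) * (M σ₀ - 1) = (M σ₀ - 1).trace • (M σ₀ - 1)
  stable : ∀ σ ∈ P.decompositionSubgroup ℚ,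
    ((M σ₀ - 1).trace • 1 - (M σ₀ - 1)) * M σ * (M σ₀ - 1) = 0
  inertia : ∀ σ ∈ P.inertiaSubgroupIn ℚ,
    ((M σ₀ - 1).trace • 1 - (M σ₀ - 1)) * (M σ - 1) = 0
  cyc : CycEq p (P.decompositionSubgroup ℚ : Set Gal) (fun σ => ((M σ₀ - 1) * M σ).trace)
    (fun σ => (((M σ₀ - 1).trace • 1 - (M σ₀ - 1)) * M σ).trace)

/-- Strict ordinarity as a matrix predicate. -/
def StrictMat (p : ℕ) : MatPred := fun A _ _ M =>
  (p : A) ∈ maximalIdeal A ∧ ∀ P : ValuationSubring (AlgebraicClosure ℚ), P.LiesOverPrime p →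
    ∀ σ₀ ∈ P.inertiaSubgroupIn ℚ, ActsBy p 1 σ₀ (p - 1) → StrictEqAt p P M σ₀

variable {p : ℕ} {P : ValuationSubring (AlgebraicClosure ℚ)} {σ₀ : Gal} {M : MatRep A}

lemma trace_conj (g : (Matrix (Fin 2) (Fin 2) A)ˣ) (X : Matrix (Fin 2) (Fin 2) A) :
    (g.val * X * g.inv).trace = X.trace := by
  rw [Matrix.trace_mul_comm, ← mul_assoc, g.inv_val, one_mul]

lemma StrictEqAt.conj (h : StrictEqAt p P M σ₀) (g : (Matrix (Fin 2) (Fin 2) A)ˣ) :
    StrictEqAt p P (conjRep g M) σ₀ := by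
  have hM : ∀ σ, conjRep g M σ = g.val * M σ * g.inv := fun σ => rfl
  have hone : (1 : Matrix (Fin 2) (Fin 2) A) = g.val * 1 * g.inv := by rw [mul_one, g.val_inv]
  have hmul : ∀ X Y : Matrix (Fin 2) (Fin 2) A,
      g.val * X * g.inv * (g.val * Y * g.inv) = g.val * (X * Y) * g.inv := fun X Y => by
    calc g.val * X * g.inv * (g.val * Y * g.inv)
        = g.val * X * (g.inv * g.val) * Y * g.inv := by simp only [mul_assoc]
      _ = g.val * (X * Y) * g.inv := by rw [g.inv_val, mul_one]; simp only [mul_assoc]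
  have hT : ∀ σ, conjRep g M σ - 1 = g.val * (M σ - 1) * g.inv := fun σ => by
    rw [hM, mul_sub, sub_mul, ← hone]
  have ht : (conjRep g M σ₀ - 1).trace = (M σ₀ - 1).trace := by rw [hT, trace_conj]
  have hE : (conjRep g M σ₀ - 1).trace • (1 : Matrix (Fin 2) (Fin 2) A) - (conjRep g M σ₀ - 1) =
      g.val * ((M σ₀ - 1).trace • 1 - (M σ₀ - 1)) * g.inv := by
    rw [ht, hT]
    conv_rhs => rw [mul_sub, sub_mul, mul_smul_comm, smul_mul_assoc, ← hone]
  constructor
  · rw [ht]; exact h.isUnit_trace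
  · rw [ht, hT, hmul, h.sq, mul_smul_comm, smul_mul_assoc]
  · intro σ hσ
    rw [hE, hT, hM, hmul, hmul, h.stable σ hσ, mul_zero, zero_mul]
  · intro σ hσ
    rw [hE, hT, hmul, h.inertia σ hσ, mul_zero, zero_mul]
  · refine h.cyc.congr (fun σ _ => ?_) fun σ _ => ?_
    · rw [hT, hM, hmul, trace_conj]
    · rw [hE, hM, hmul, trace_conj]

lemma strictEqAt_of_triangular (hp2 : p ≠ 2) [Fact p.Prime] [IsLocalRing A]
    (hp : (p : A) ∈ maximalIdeal A)
    (h10 : ∀ σ ∈ P.decompositionSubgroup ℚ, M σ 1 0 = 0)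
    (h11 : ∀ σ ∈ P.inertiaSubgroupIn ℚ, M σ 1 1 = 1)
    (hcyc : CycEq p (P.decompositionSubgroup ℚ : Set Gal) (fun σ => M σ 0 0) (fun σ => M σ 1 1))
    (hσ₀ : σ₀ ∈ P.inertiaSubgroupIn ℚ) (ha : ActsBy p 1 σ₀ (p - 1)) :
    StrictEqAt p P M σ₀ := by
  have hD₀ : σ₀ ∈ P.decompositionSubgroup ℚ := Galois.inertia_le_decomposition P hσ₀
  have e1 := h11 σ₀ hσ₀
  have e2 := h10 σ₀ hD₀
  obtain ⟨T, hT⟩ : ∃ T, M σ₀ - 1 = T := ⟨_, rfl⟩
  have hT10 : T 1 0 = 0 := by simp [← hT, e2]
  have hT11 : T 1 1 = 0 := by simp [← hT, e1]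
  have htr : T.trace = T 0 0 := by rw [Matrix.trace_fin_two, hT11, add_zero]
  have hunit : IsUnit (T 0 0) := by
    have h0 := hcyc σ₀ hD₀ 1 (p - 1) ha
    have hT00 : T 0 0 = M σ₀ 0 0 - 1 := by simp [← hT]
    have hsub : M σ₀ 0 0 - ((p - 1 : ℕ) : A) * M σ₀ 1 1 ∈ maximalIdeal A :=
      (Ideal.span_le.2 (Set.singleton_subset_iff.2 (by simpa using hp))) h0
    have hcast : ((p - 1 : ℕ) : A) = (p : A) - 1 := by
      rw [Nat.cast_sub (Fact.out (p := p.Prime)).one_le, Nat.cast_one]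
    rw [e1, hcast, mul_one] at hsub
    by_contra hu
    have h2 : (2 : A) ∈ maximalIdeal A := by
      have := (maximalIdeal A).sub_mem ((maximalIdeal A).sub_mem hsub (hu : T 0 0 ∈ maximalIdeal A))
        (neg_mem hp)
      rw [hT00] at this
      convert this using 1; ring
    obtain ⟨u, v, huv⟩ : ∃ u v : ℤ, u * (p : ℤ) + v * 2 = 1 := by
      obtain ⟨u, v, huv⟩ := Int.isCoprime_iff_nat_coprime.2
        (show Nat.Coprime (p : ℤ).natAbs (2 : ℤ).natAbs by
          simpa using (Nat.coprime_primes (Fact.out (p := p.Prime)) Nat.prime_two).2 hp2)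
      exact ⟨u, v, huv⟩
    have h1 := congrArg (Int.cast : ℤ → A) huv
    push_cast at h1
    exact (maximalIdeal.isMaximal A).ne_top ((Ideal.eq_top_iff_one _).2 (h1 ▸
      (maximalIdeal A).add_mem (Ideal.mul_mem_left _ _ hp) (Ideal.mul_mem_left _ _ h2)))
  constructor
  · rwa [hT, htr]
  · rw [hT, htr]
    ext i j
    fin_cases i <;> fin_cases j <;> simp [Matrix.mul_apply, Fin.sum_univ_two, hT10, hT11]
  · intro σ hσ
    rw [hT, htr]
    ext i j
    fin_cases i <;> fin_cases j <;>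
      simp [Matrix.mul_apply, Fin.sum_univ_two, hT10, hT11, h10 σ hσ]
  · intro σ hσ
    rw [hT, htr]
    ext i j
    fin_cases i <;> fin_cases j <;>
      simp [Matrix.mul_apply, Fin.sum_univ_two, hT10, hT11,
        h10 σ (Galois.inertia_le_decomposition P hσ), h11 σ hσ]
  · intro σ hσ n a hna
    have h0 := Ideal.mul_mem_left _ (T 0 0) (hcyc σ hσ n a hna)
    convert h0 using 1
    simp only [hT]
    simp [htr, Matrix.mul_apply, Fin.sum_univ_two, Matrix.trace_fin_two, hT10, hT11, h10 σ hσ]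
    ring

/-- A basis in which `T = ρ σ₀ - 1` is diagonal. -/
lemma exists_diag_conj {T : Matrix (Fin 2) (Fin 2) A} [IsLocalRing A] (hu : IsUnit T.trace)
    (hsq : T * T = T.trace • T) :
    ∃ g : (Matrix (Fin 2) (Fin 2) A)ˣ, g.val * T * g.inv = !![T.trace, 0; 0, 0] := by
  have e00 := congrFun (congrFun hsq 0) 0
  have e11 := congrFun (congrFun hsq 1) 1
  simp [Matrix.mul_apply, Fin.sum_univ_two, Matrix.trace_fin_two] at e00 e11
  have hdet : T 0 1 * T 1 0 = T 0 0 * T 1 1 := by linear_combination e00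
  suffices ∃ G : Matrix (Fin 2) (Fin 2) A, IsUnit G.det ∧ T * G = G * !![T.trace, 0; 0, 0] by
    obtain ⟨G, hG, hTG⟩ := this
    obtain ⟨g, rfl⟩ := (Matrix.isUnit_iff_isUnit_det G).2 hG
    refine ⟨g⁻¹, ?_⟩
    show g.inv * T * g.val = _
    rw [mul_assoc, hTG, ← mul_assoc, g.inv_val, one_mul]
  rw [Matrix.trace_fin_two] at hu ⊢
  rcases IsLocalRing.isUnit_or_isUnit_of_isUnit_add hu with h | h
  · refine ⟨!![T 0 0, -T 0 1; T 1 0, T 0 0], ?_, ?_⟩
    · rw [Matrix.det_fin_two_of]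
      convert h.mul hu using 1
      linear_combination hdet
    · ext i j
      fin_cases i <;> fin_cases j <;> simp [Matrix.mul_apply, Fin.sum_univ_two]
      all_goals first
        | (ring1)
        | linear_combination hdet
        | linear_combination -hdet
        | linear_combination 2 * hdet
        | linear_combination -2 * hdet
  · refine ⟨!![T 0 1, T 1 1; T 1 1, -T 1 0], ?_, ?_⟩
    · rw [Matrix.det_fin_two_of]
      convert (h.mul hu).neg using 1
      linear_combination -hdet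
    · ext i j
      fin_cases i <;> fin_cases j <;> simp [Matrix.mul_apply, Fin.sum_univ_two]
      all_goals first
        | (ring1)
        | linear_combination hdet
        | linear_combination -hdet
        | linear_combination 2 * hdet
        | linear_combination -2 * hdet

/-- Change of basis by an invertible matrix. -/
lemma exists_basis_conj [IsLocalRing A] (ρ : GaloisRepAdic A)
    (b : Module.Basis (Fin 2) A ρ.V) (g : (Matrix (Fin 2) (Fin 2) A)ˣ) :
    ∃ b' : Module.Basis (Fin 2) A ρ.V, matOf ρ b' = conjRep g (matOf ρ b) := by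
  let Φ := Matrix.toLinAlgEquiv b
  let e : ρ.V ≃ₗ[A] ρ.V := LinearEquiv.ofLinearMap (Φ g.inv) (Φ g.val)
    (by rw [← Module.End.mul_eq_comp, ← map_mul, g.inv_val, map_one]; rfl)
    (by rw [← Module.End.mul_eq_comp, ← map_mul, g.val_inv, map_one]; rfl)
  refine ⟨b.map e, matRep_ext fun σ i j => ?_⟩
  have h : LinearMap.toMatrixAlgEquiv b (Φ g.val * ρ.ρ σ * Φ g.inv) =
      g.val * matOf ρ b σ * g.inv := by
    rw [map_mul, map_mul]
    simp only [Φ, LinearMap.toMatrixAlgEquiv_toLinAlgEquiv]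
    rfl
  have h' : conjRep g (matOf ρ b) σ = LinearMap.toMatrixAlgEquiv b (Φ g.val * ρ.ρ σ * Φ g.inv) :=
    h.symm
  rw [matOf_apply, h', LinearMap.toMatrix_apply, LinearMap.toMatrixAlgEquiv_apply,
    Module.Basis.map_apply]
  rfl

lemma exists_conj_basis [IsLocalRing A] (ρ : GaloisRepAdic A)
    (b b' : Module.Basis (Fin 2) A ρ.V) :
    ∃ g : (Matrix (Fin 2) (Fin 2) A)ˣ, matOf ρ b' = conjRep g (matOf ρ b) := by
  refine ⟨matUnit b b' (LinearEquiv.refl A ρ.V), MonoidHom.ext fun σ => ?_⟩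
  set g := matUnit b b' (LinearEquiv.refl A ρ.V)
  have h : g.val * matOf ρ b σ = matOf ρ b' σ * g.val :=
    toMatrix_intertwines b b' (ρ.ρ σ) (ρ.ρ σ) LinearMap.id fun _ => rfl
  show matOf ρ b' σ = g.val * matOf ρ b σ * g.inv
  rw [h, mul_assoc, g.val_inv, mul_one]

theorem isStrictOrdinaryAt_iff_strictMat (hp2 : p ≠ 2) [Fact p.Prime] [IsLocalRing A]
    (ρ : GaloisRepAdic A) (b : Module.Basis (Fin 2) A ρ.V) :
    ρ.IsStrictOrdinaryAt p ↔ StrictMat p (matOf ρ b) := by
  refine and_congr_right fun hp => ⟨fun h P hP σ₀ hσ₀ ha => ?_, fun h P hP => ?_⟩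
  · obtain ⟨L, ⟨b', hL⟩, hD, hI, hxz⟩ := h P hP
    obtain ⟨g, hg⟩ := exists_conj_basis ρ b' b
    rw [hg]
    refine StrictEqAt.conj ?_ g
    have hb0 : b' 0 ∈ L := hL ▸ Submodule.mem_span_singleton_self _
    have hrepr : ∀ v ∈ L, b'.repr v 1 = 0 := fun v hv => by
      rw [hL, Submodule.mem_span_singleton] at hv
      obtain ⟨c, rfl⟩ := hv
      simp
    refine strictEqAt_of_triangular hp2 hp (fun σ hσ => ?_) (fun σ hσ => ?_) ?_ hσ₀ ha
    · rw [matOf_apply, LinearMap.toMatrix_apply]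
      exact hrepr _ (hD σ hσ _ hb0)
    · have := hrepr _ (hI σ hσ (b' 1))
      rw [map_sub, Finsupp.sub_apply, sub_eq_zero] at this
      rw [matOf_apply, LinearMap.toMatrix_apply, this]
      simp
    · intro σ hσ n a hna
      obtain ⟨x, z, hx, hz, hn⟩ := hxz σ hσ
      have h00 : matOf ρ b' σ 0 0 = x := by
        rw [matOf_apply, LinearMap.toMatrix_apply, hx _ hb0]; simp
      have h11 : matOf ρ b' σ 1 1 = z := by
        have := hrepr _ (hz (b' 1))
        rw [map_sub, Finsupp.sub_apply, sub_eq_zero] at this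
        rw [matOf_apply, LinearMap.toMatrix_apply, this]
        simp
      simp only [h00, h11]
      exact hn n a hna
  · obtain ⟨σ₀, hσ₀, ha⟩ := exists_inertia_actsBy_neg_one p hP
    have h₀ := h P hP σ₀ hσ₀ ha
    obtain ⟨g, hg⟩ := exists_diag_conj h₀.isUnit_trace h₀.sq
    obtain ⟨b', hb'⟩ := exists_basis_conj ρ b g
    have h' := h₀.conj g
    rw [← hb'] at h'
    obtain ⟨N, hN⟩ : ∃ N, matOf ρ b' = N := ⟨_, rfl⟩
    rw [hN] at h'
    set t := (matOf ρ b σ₀ - 1).trace
    have ht : IsUnit t := h₀.isUnit_trace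
    have hT : N σ₀ - 1 = !![t, 0; 0, 0] := by
      rw [← hN, hb']
      show g.val * matOf ρ b σ₀ * g.inv - 1 = _
      rw [← hg, mul_sub, sub_mul, mul_one, g.val_inv]
    have htr : (N σ₀ - 1).trace = t := by rw [hT, Matrix.trace_fin_two]; simp
    have h10 : ∀ σ ∈ P.decompositionSubgroup ℚ, N σ 1 0 = 0 := fun σ hσ => by
      have := congrFun (congrFun (h'.stable σ hσ) 1) 0
      rw [htr, hT] at this
      simp [Matrix.mul_apply, Fin.sum_univ_two] at this
      exact ht.mul_right_eq_zero.1 (ht.mul_left_eq_zero.1 this)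
    have h11 : ∀ σ ∈ P.inertiaSubgroupIn ℚ, N σ 1 1 = 1 := fun σ hσ => by
      have := congrFun (congrFun (h'.inertia σ hσ) 1) 1
      rw [htr, hT] at this
      simp [Matrix.mul_apply, Fin.sum_univ_two] at this
      exact sub_eq_zero.1 (ht.mul_right_eq_zero.1 this)
    have hcyc : ∀ σ ∈ P.decompositionSubgroup ℚ, ∀ n a : ℕ, ActsBy p n σ a →
        N σ 0 0 - (a : A) * N σ 1 1 ∈ Ideal.span {((p ^ n : ℕ) : A)} := fun σ hσ n a hna => by
      have := h'.cyc σ hσ n a hna
      rw [htr, hT] at this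
      simp [Matrix.mul_apply, Matrix.vecMul, dotProduct, Fin.sum_univ_two,
        Matrix.trace_fin_two] at this
      refine (Ideal.unit_mul_mem_iff_mem _ ht).1 ?_
      push_cast
      convert this using 1
      ring
    have hval : ∀ (σ : Gal) (v : ρ.V) (i : Fin 2),
        b'.repr (ρ.ρ σ v) i = N σ i 0 * b'.repr v 0 + N σ i 1 * b'.repr v 1 := fun σ v i => by
      rw [← LinearMap.toMatrix_mulVec_repr b' b' (ρ.ρ σ) v]
      simp [Matrix.mulVec, dotProduct, Fin.sum_univ_two, ← hN, matOf_apply]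
    have hmem : ∀ v : ρ.V, b'.repr v 1 = 0 → v ∈ A ∙ b' 0 := fun v hv => by
      refine Submodule.mem_span_singleton.2 ⟨b'.repr v 0, ?_⟩
      conv_rhs => rw [← b'.sum_repr v, Fin.sum_univ_two, hv, zero_smul, add_zero]
    have hrepr : ∀ v ∈ A ∙ b' 0, b'.repr v 1 = 0 := fun v hv => by
      obtain ⟨c, rfl⟩ := Submodule.mem_span_singleton.1 hv
      simp
    refine ⟨A ∙ b' 0, ⟨b', rfl⟩, fun σ hσ v hv => hmem _ ?_, fun σ hσ v => hmem _ ?_,
      fun σ hσ => ⟨N σ 0 0, N σ 1 1, fun w hw => ?_, fun v => hmem _ ?_, hcyc σ hσ⟩⟩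
    · rw [hval, h10 σ hσ, hrepr v hv]; ring
    · rw [map_sub, Finsupp.sub_apply, hval, h10 σ (Galois.inertia_le_decomposition P hσ),
        h11 σ hσ]
      ring
    · refine b'.repr.injective (Finsupp.ext fun i => ?_)
      rw [hval, hrepr w hw, map_smul, Finsupp.smul_apply, smul_eq_mul]
      fin_cases i
      · simp
      · simp [hrepr w hw, h10 σ hσ]
    · rw [map_sub, map_smul, Finsupp.sub_apply, Finsupp.smul_apply, smul_eq_mul, hval, h10 σ hσ]
      ring

lemma trace_mapMatrix {B : Type} [CommRing B] (φ : A →+* B) (X : Matrix (Fin 2) (Fin 2) A) :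
    (φ.mapMatrix X).trace = φ X.trace := by simp [Matrix.trace]

lemma StrictEqAt.map (h : StrictEqAt p P M σ₀) {B : Type} [CommRing B] (φ : A →+* B) :
    StrictEqAt p P (mapRep φ M) σ₀ := by
  have hM : ∀ σ, mapRep φ M σ = φ.mapMatrix (M σ) := fun σ => rfl
  have hT : ∀ σ, mapRep φ M σ - 1 = φ.mapMatrix (M σ - 1) := fun σ => by
    rw [hM, map_sub, map_one]
  have hsm : ∀ (c : A) (X : Matrix (Fin 2) (Fin 2) A),
      φ.mapMatrix (c • X) = φ c • φ.mapMatrix X := fun c X => by ext i j; simp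
  have hE : (mapRep φ M σ₀ - 1).trace • (1 : Matrix (Fin 2) (Fin 2) B) - (mapRep φ M σ₀ - 1) =
      φ.mapMatrix ((M σ₀ - 1).trace • 1 - (M σ₀ - 1)) := by
    rw [hT, trace_mapMatrix, map_sub φ.mapMatrix (_ • _), hsm, map_one]
  constructor
  · rw [hT, trace_mapMatrix]; exact h.isUnit_trace.map φ
  · rw [hT, trace_mapMatrix, ← map_mul, h.sq, hsm]
  · intro σ hσ
    rw [hE, hT, hM, ← map_mul, ← map_mul, h.stable σ hσ, map_zero]
  · intro σ hσ
    rw [hE, hT, ← map_mul, h.inertia σ hσ, map_zero]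
  · refine (h.cyc.map φ).congr (fun σ _ => ?_) fun σ _ => ?_
    · rw [hT, hM, ← map_mul, trace_mapMatrix]; rfl
    · rw [hE, hM, ← map_mul, trace_mapMatrix]; rfl

variable {𝒪 : Type} [CommRing 𝒪] [IsLocalRing 𝒪]

/-- Strict ordinarity at an odd prime. -/
theorem closed_isStrictOrdinaryAt (p : ℕ) [Fact p.Prime] (hp2 : p ≠ 2) :
    Closed 𝒪 (fun A _ _ _ ρ => ρ.IsStrictOrdinaryAt p) := by
  refine Closed.of_matPred (StrictMat p)
    (fun A _ _ _ ρ b => isStrictOrdinaryAt_iff_strictMat hp2 ρ b) ?_ ?_ ?_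
  · intro A B _ _ _ _ φ hφ M h
    exact ⟨natCast_mem_maximalIdeal_map hφ h.1, fun P hP σ₀ hσ₀ ha => (h.2 P hP σ₀ hσ₀ ha).map φ⟩
  · intro A B P _ _ _ _ _ _ _ _ φ ψ hφ _ hinj M h₁ h₂
    refine ⟨natCast_mem_maximalIdeal_comap (φ := φ) h₁.1, fun Q hQ σ₀ hσ₀ ha => ?_⟩
    have e₁ := h₁.2 Q hQ σ₀ hσ₀ ha
    have e₂ := h₂.2 Q hQ σ₀ hσ₀ ha
    have hT : ∀ {C : Type} [CommRing C] (χ : P →+* C) σ,
        mapRep χ M σ - 1 = χ.mapMatrix (M σ - 1) := fun χ σ => by
      rw [map_sub, map_one]; rfl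
    have hsm : ∀ {C : Type} [CommRing C] (χ : P →+* C) (c : P) (X : Matrix (Fin 2) (Fin 2) P),
        χ.mapMatrix (c • X) = χ c • χ.mapMatrix X := fun χ c X => by ext i j; simp
    constructor
    · have := e₁.isUnit_trace
      rw [hT, trace_mapMatrix] at this
      exact IsLocalHom.map_nonunit _ this
    · refine matrix_eq_of_injective_pair hinj ?_ ?_
      · rw [map_mul, hsm, ← hT, ← trace_mapMatrix, ← hT]; exact e₁.sq
      · rw [map_mul, hsm, ← hT, ← trace_mapMatrix, ← hT]; exact e₂.sq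
    · intro σ hσ
      refine matrix_eq_of_injective_pair hinj ?_ ?_
      · rw [map_zero, map_mul, map_mul, map_sub φ.mapMatrix (_ • _), hsm, map_one,
          ← trace_mapMatrix, ← hT]
        exact e₁.stable σ hσ
      · rw [map_zero, map_mul, map_mul, map_sub ψ.mapMatrix (_ • _), hsm, map_one,
          ← trace_mapMatrix, ← hT]
        exact e₂.stable σ hσ
    · intro σ hσ
      refine matrix_eq_of_injective_pair hinj ?_ ?_
      · rw [map_zero, map_mul, map_sub φ.mapMatrix (_ • _), hsm, map_one,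
          ← trace_mapMatrix, ← hT, ← hT]
        exact e₁.inertia σ hσ
      · rw [map_zero, map_mul, map_sub ψ.mapMatrix (_ • _), hsm, map_one,
          ← trace_mapMatrix, ← hT, ← hT]
        exact e₂.inertia σ hσ
    · refine CycEq.of_injective_pair φ ψ hinj (isNilpotent_of_mem_maximalIdeal h₁.1)
        (isNilpotent_of_mem_maximalIdeal h₂.1) (e₁.cyc.congr ?_ ?_) (e₂.cyc.congr ?_ ?_)
      all_goals intro σ _
      all_goals simp only [Function.comp_apply, ← trace_mapMatrix, map_mul, hT]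
      all_goals first
        | rfl
        | (rw [map_sub (RingHom.mapMatrix _) (_ • _), hsm, map_one, ← trace_mapMatrix]; rfl)
  · intro A _ _ _ M h
    have := isLocalRing_quotient_pow (A := A) 0
    refine ⟨natCast_mem_maximalIdeal_comap
      (φ := Ideal.Quotient.mk (maximalIdeal A ^ (0 + 1))) (h 0).1, fun Q hQ σ₀ hσ₀ ha => ?_⟩
    have e : ∀ n : ℕ, StrictEqAt p Q
        (mapRep (Ideal.Quotient.mk (maximalIdeal A ^ (n + 1))) M) σ₀ := fun n => by
      have := isLocalRing_quotient_pow (A := A) n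
      exact (h n).2 Q hQ σ₀ hσ₀ ha
    have hT : ∀ {C : Type} [CommRing C] (χ : A →+* C) σ,
        mapRep χ M σ - 1 = χ.mapMatrix (M σ - 1) := fun χ σ => by
      rw [map_sub, map_one]; rfl
    have hsm : ∀ {C : Type} [CommRing C] (χ : A →+* C) (c : A) (X : Matrix (Fin 2) (Fin 2) A),
        χ.mapMatrix (c • X) = χ c • χ.mapMatrix X := fun χ c X => by ext i j; simp
    constructor
    · have := (e 0).isUnit_trace
      rw [hT, trace_mapMatrix] at this
      have := isLocalHom_mk_pow (A := A) 0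
      exact IsLocalHom.map_nonunit (f := Ideal.Quotient.mk (maximalIdeal A ^ (0 + 1))) _ ‹_›
    · refine matrix_eq_of_forall_quotient fun n => ?_
      rw [map_mul, hsm, ← hT, ← trace_mapMatrix, ← hT]
      exact (e n).sq
    · intro σ hσ
      refine matrix_eq_of_forall_quotient fun n => ?_
      rw [map_zero, map_mul, map_mul, map_sub (RingHom.mapMatrix _) (_ • _), hsm, map_one,
        ← trace_mapMatrix, ← hT]
      exact (e n).stable σ hσ
    · intro σ hσ
      refine matrix_eq_of_forall_quotient fun n => ?_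
      rw [map_zero, map_mul, map_sub (RingHom.mapMatrix _) (_ • _), hsm, map_one,
        ← trace_mapMatrix, ← hT, ← hT]
      exact (e n).inertia σ hσ
    · refine CycEq.of_forall_quotient fun n => (e n).cyc.congr ?_ ?_
      all_goals intro σ _
      all_goals simp only [Function.comp_apply, ← trace_mapMatrix, map_mul, hT]
      all_goals first
        | rfl
        | (rw [map_sub (RingHom.mapMatrix _) (_ • _), hsm, map_one, ← trace_mapMatrix]; rfl)

end Fermat.Agent.DefCond
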