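import Mathlib
import Fermat.Agent.DefCond.Flat
import Fermat.Agent.DefCond.StrictOrd
import Fermat.Agent.DefCond.TangentFinite

/-!
Cyclotomic determinant together with ordinarity at an odd `p` is closed: the determinant makes
the line distinguished, so it is again the image of `ρ σ₀ - 1`.
-/

set_option autoImplicit false
set_option maxHeartbeats 400000

noncomputable section

namespace Fermat.Agent.DefCond

open IsLocalRing Deform

variable {A : Type} [CommRing A]

/-- The equations cutting out ordinarity, given a cyclotomic determinant. -/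
structure OrdEqAt (P : ValuationSubring (AlgebraicClosure ℚ)) (M : MatRep A) (σ₀ : Gal) :
    Prop where
  isUnit_trace : IsUnit (M σ₀ - 1).trace
  sq : (M σ₀ - 1) * (M σ₀ - 1) = (M σ₀ - 1).trace • (M σ₀ - 1)
  stable : ∀ σ ∈ P.decompositionSubgroup ℚ,
    ((M σ₀ - 1).trace • 1 - (M σ₀ - 1)) * M σ * (M σ₀ - 1) = 0
  inertia : ∀ σ ∈ P.inertiaSubgroupIn ℚ,
    ((M σ₀ - 1).trace • 1 - (M σ₀ - 1)) * (M σ - 1) = 0

variable {p : ℕ} {P : ValuationSubring (AlgebraicClosure ℚ)} {σ₀ : Gal} {M : MatRep A}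

lemma OrdEqAt.conj (h : OrdEqAt P M σ₀) (g : (Matrix (Fin 2) (Fin 2) A)ˣ) :
    OrdEqAt P (conjRep g M) σ₀ := by
  have hM : ∀ σ, conjRep g M σ = g.val * M σ * g.inv := fun σ => rfl
  have hone : (1 : Matrix (Fin 2) (Fin 2) A) = g.val * 1 * g.inv := by rw [mul_one, g.val_inv]
  have hmul : ∀ X Y : Matrix (Fin 2) (Fin 2) A,
      g.val * X * g.inv * (g.val * Y * g.inv) = g.val * (X * Y) * g.inv := fun X Y => by
    calc g.val * X * g.inv * (g.val * Y * g.inv)
        = g.val * X * (g.inv * g.val) * Y * g.inv := by simp only [mul_assoc]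
      _ = g.val * (X * Y) * g.inv := by rw [g.inv_val, mul_one]; simp only [mul_assoc]
  have hT : ∀ σ, conjRep g M σ - 1 = g.val * (M σ - 1) * g.inv := fun σ => by
    rw [hM, mul_sub, sub_mul, ← hone]
  have ht : (conjRep g M σ₀ - 1).trace = (M σ₀ - 1).trace := by rw [hT, trace_conj]
  have hE : (conjRep g M σ₀ - 1).trace • (1 : Matrix (Fin 2) (Fin 2) A) - (conjRep g M σ₀ - 1) =
      g.val * ((M σ₀ - 1).trace • 1 - (M σ₀ - 1)) * g.inv := by
    rw [ht, hT]
    conv_rhs => rw [mul_sub, sub_mul, mul_smul_comm, smul_mul_assoc, ← hone]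
  constructor
  · rw [ht]; exact h.isUnit_trace
  · rw [ht, hT, hmul, h.sq, mul_smul_comm, smul_mul_assoc]
  · intro σ hσ
    rw [hE, hT, hM, hmul, hmul, h.stable σ hσ, mul_zero, zero_mul]
  · intro σ hσ
    rw [hE, hT, hmul, h.inertia σ hσ, mul_zero, zero_mul]

lemma mapRep_sub_one {B : Type} [CommRing B] (φ : A →+* B) (M : MatRep A) (σ : Gal) :
    mapRep φ M σ - 1 = φ.mapMatrix (M σ - 1) := by
  rw [map_sub, map_one]; rfl

lemma mapMatrix_smul {B : Type} [CommRing B] (φ : A →+* B) (c : A)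
    (X : Matrix (Fin 2) (Fin 2) A) : φ.mapMatrix (c • X) = φ c • φ.mapMatrix X := by
  ext i j; simp

lemma mapMatrix_complement {B : Type} [CommRing B] (φ : A →+* B)
    (X : Matrix (Fin 2) (Fin 2) A) :
    φ.mapMatrix (X.trace • 1 - X) = (φ.mapMatrix X).trace • 1 - φ.mapMatrix X := by
  rw [map_sub φ.mapMatrix (_ • _), mapMatrix_smul, map_one, trace_mapMatrix]

lemma OrdEqAt.map (h : OrdEqAt P M σ₀) {B : Type} [CommRing B] (φ : A →+* B) :
    OrdEqAt P (mapRep φ M) σ₀ := by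
  have hM : ∀ σ, mapRep φ M σ = φ.mapMatrix (M σ) := fun σ => rfl
  constructor
  · rw [mapRep_sub_one, trace_mapMatrix]; exact h.isUnit_trace.map φ
  · rw [mapRep_sub_one, trace_mapMatrix, ← map_mul, h.sq, mapMatrix_smul]
  · intro σ hσ
    rw [mapRep_sub_one, hM, ← mapMatrix_complement, ← map_mul, ← map_mul, h.stable σ hσ, map_zero]
  · intro σ hσ
    rw [mapRep_sub_one, mapRep_sub_one, ← mapMatrix_complement, ← map_mul, h.inertia σ hσ,
      map_zero]

/-- Cyclotomic determinant and ordinarity, as a matrix predicate. -/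
def DetOrdMat (p : ℕ) : MatPred := fun A _ _ M =>
  ((p : A) ∈ maximalIdeal A ∧ CycEq p Set.univ (fun σ => (M σ).det) 1) ∧
    ∀ P : ValuationSubring (AlgebraicClosure ℚ), P.LiesOverPrime p →
      ∀ σ₀ ∈ P.inertiaSubgroupIn ℚ, ActsBy p 1 σ₀ (p - 1) → OrdEqAt P M σ₀

variable [IsLocalRing A]

lemma ordEqAt_of_triangular (hp2 : p ≠ 2) [Fact p.Prime] (hp : (p : A) ∈ maximalIdeal A)
    (h10 : ∀ σ ∈ P.decompositionSubgroup ℚ, M σ 1 0 = 0)
    (h11 : ∀ σ ∈ P.inertiaSubgroupIn ℚ, M σ 1 1 = 1)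
    (hdet : CycEq p Set.univ (fun σ => (M σ).det) 1)
    (hσ₀ : σ₀ ∈ P.inertiaSubgroupIn ℚ) (ha : ActsBy p 1 σ₀ (p - 1)) :
    OrdEqAt P M σ₀ := by
  have hD₀ : σ₀ ∈ P.decompositionSubgroup ℚ := Galois.inertia_le_decomposition P hσ₀
  obtain ⟨T, hT⟩ : ∃ T, M σ₀ - 1 = T := ⟨_, rfl⟩
  have hT10 : T 1 0 = 0 := by simp [← hT, h10 σ₀ hD₀]
  have hT11 : T 1 1 = 0 := by simp [← hT, h11 σ₀ hσ₀]
  have htr : T.trace = T 0 0 := by rw [Matrix.trace_fin_two, hT11, add_zero]
  have hunit : IsUnit (T 0 0) := by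
    have hT00 : T 0 0 = M σ₀ 0 0 - 1 := by simp [← hT]
    have hsub := (Ideal.span_le.2 (Set.singleton_subset_iff.2 (by rw [pow_one]; exact hp)))
      (hdet σ₀ (Set.mem_univ _) 1 (p - 1) ha)
    have hcast : ((p - 1 : ℕ) : A) = (p : A) - 1 := by
      rw [Nat.cast_sub (Fact.out (p := p.Prime)).one_le, Nat.cast_one]
    have hd : (M σ₀).det = M σ₀ 0 0 := by
      rw [Matrix.det_fin_two, h11 σ₀ hσ₀, h10 σ₀ hD₀]; ring
    simp only [Pi.one_apply, mul_one, hcast, hd] at hsub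
    by_contra hu
    have h2 : (2 : A) ∈ maximalIdeal A := by
      have := (maximalIdeal A).sub_mem ((maximalIdeal A).sub_mem hsub (hu : T 0 0 ∈ maximalIdeal A))
        (neg_mem hp)
      rw [hT00] at this
      convert this using 1; ring
    obtain ⟨u, v, huv⟩ := Int.isCoprime_iff_nat_coprime.2
      (show Nat.Coprime (p : ℤ).natAbs (2 : ℤ).natAbs by
        simpa using (Nat.coprime_primes (Fact.out (p := p.Prime)) Nat.prime_two).2 hp2)
    have h1 := congrArg (Int.cast : ℤ → A) huv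
    push_cast at h1
    exact (maximalIdeal.isMaximal A).ne_top ((Ideal.eq_top_iff_one _).2 (h1 ▸
      (maximalIdeal A).add_mem (Ideal.mul_mem_left _ _ hp) (Ideal.mul_mem_left _ _ h2)))
  constructor
  · rwa [hT, htr]
  · rw [hT, htr]
    ext i j
    fin_cases i <;> fin_cases j <;> simp [Matrix.mul_apply, Fin.sum_univ_two, hT10, hT11]
  · intro σ hσ
    rw [hT, htr]
    ext i j
    fin_cases i <;> fin_cases j <;>
      simp [Matrix.mul_apply, Fin.sum_univ_two, hT10, hT11, h10 σ hσ]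
  · intro σ hσ
    rw [hT, htr]
    ext i j
    fin_cases i <;> fin_cases j <;>
      simp [Matrix.mul_apply, Fin.sum_univ_two, hT10, hT11,
        h10 σ (Galois.inertia_le_decomposition P hσ), h11 σ hσ]

lemma detIsCyclotomic_iff_matOf (ρ : GaloisRepAdic A) (b : Module.Basis (Fin 2) A ρ.V) :
    ρ.DetIsCyclotomic p ↔ (p : A) ∈ maximalIdeal A ∧
      CycEq p Set.univ (fun σ => (matOf ρ b σ).det) 1 := by
  have e : ∀ σ, (matOf ρ b σ).det = LinearMap.det (ρ.ρ σ) := fun σ =>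
    LinearMap.det_toMatrix b (ρ.ρ σ)
  refine and_congr_right fun _ => ⟨fun h σ _ n a ha => ?_, fun h n σ a ha => ?_⟩
  · simpa [e] using h n σ a ha
  · simpa [e] using h σ (Set.mem_univ σ) n a ha

theorem det_and_isOrdinaryAt_iff (hp2 : p ≠ 2) [Fact p.Prime] (ρ : GaloisRepAdic A)
    (b : Module.Basis (Fin 2) A ρ.V) :
    ρ.DetIsCyclotomic p ∧ ρ.IsOrdinaryAt p ↔ DetOrdMat p (matOf ρ b) := by
  constructor
  · rintro ⟨hdet, h⟩
    refine ⟨(detIsCyclotomic_iff_matOf ρ b).1 hdet, fun P hP σ₀ hσ₀ ha => ?_⟩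
    obtain ⟨L, ⟨b', hL⟩, hD, hI⟩ := h P hP
    obtain ⟨g, hg⟩ := exists_conj_basis ρ b' b
    rw [hg]
    refine OrdEqAt.conj ?_ g
    have hb0 : b' 0 ∈ L := hL ▸ Submodule.mem_span_singleton_self _
    have hrepr : ∀ v ∈ L, b'.repr v 1 = 0 := fun v hv => by
      rw [hL, Submodule.mem_span_singleton] at hv
      obtain ⟨c, rfl⟩ := hv
      simp
    have hd' := (detIsCyclotomic_iff_matOf ρ b').1 hdet
    refine ordEqAt_of_triangular hp2 hd'.1 (fun σ hσ => ?_) (fun σ hσ => ?_) hd'.2 hσ₀ ha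
    · rw [matOf_apply, LinearMap.toMatrix_apply]
      exact hrepr _ (hD σ hσ _ hb0)
    · have := hrepr _ (hI σ hσ (b' 1))
      rw [map_sub, Finsupp.sub_apply, sub_eq_zero] at this
      rw [matOf_apply, LinearMap.toMatrix_apply, this]
      simp
  · intro h
    refine ⟨(detIsCyclotomic_iff_matOf ρ b).2 h.1, fun P hP => ?_⟩
    obtain ⟨σ₀, hσ₀, ha⟩ := exists_inertia_actsBy_neg_one p hP
    have h₀ := h.2 P hP σ₀ hσ₀ ha
    obtain ⟨g, hg⟩ := exists_diag_conj h₀.isUnit_trace h₀.sq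
    obtain ⟨b', hb'⟩ := exists_basis_conj ρ b g
    have h' := h₀.conj g
    rw [← hb'] at h'
    obtain ⟨N, hN⟩ : ∃ N, matOf ρ b' = N := ⟨_, rfl⟩
    rw [hN] at h'
    set t := (matOf ρ b σ₀ - 1).trace
    have ht : IsUnit t := h₀.isUnit_trace
    have hT : N σ₀ - 1 = !![t, 0; 0, 0] := by
      rw [← hN, hb']
      show g.val * matOf ρ b σ₀ * g.inv - 1 = _
      rw [← hg, mul_sub, sub_mul, mul_one, g.val_inv]
    have htr : (N σ₀ - 1).trace = t := by rw [hT, Matrix.trace_fin_two]; simp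
    have h10 : ∀ σ ∈ P.decompositionSubgroup ℚ, N σ 1 0 = 0 := fun σ hσ => by
      have := congrFun (congrFun (h'.stable σ hσ) 1) 0
      rw [htr, hT] at this
      simp [Matrix.mul_apply, Fin.sum_univ_two] at this
      exact ht.mul_right_eq_zero.1 (ht.mul_left_eq_zero.1 this)
    have h11 : ∀ σ ∈ P.inertiaSubgroupIn ℚ, N σ 1 1 = 1 := fun σ hσ => by
      have := congrFun (congrFun (h'.inertia σ hσ) 1) 1
      rw [htr, hT] at this
      simp [Matrix.mul_apply, Fin.sum_univ_two] at this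
      exact sub_eq_zero.1 (ht.mul_right_eq_zero.1 this)
    have hval : ∀ (σ : Gal) (v : ρ.V) (i : Fin 2),
        b'.repr (ρ.ρ σ v) i = N σ i 0 * b'.repr v 0 + N σ i 1 * b'.repr v 1 := fun σ v i => by
      rw [← LinearMap.toMatrix_mulVec_repr b' b' (ρ.ρ σ) v]
      simp [Matrix.mulVec, dotProduct, Fin.sum_univ_two, ← hN, matOf_apply]
    have hmem : ∀ v : ρ.V, b'.repr v 1 = 0 → v ∈ A ∙ b' 0 := fun v hv => by
      refine Submodule.mem_span_singleton.2 ⟨b'.repr v 0, ?_⟩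
      conv_rhs => rw [← b'.sum_repr v, Fin.sum_univ_two, hv, zero_smul, add_zero]
    have hrepr : ∀ v ∈ A ∙ b' 0, b'.repr v 1 = 0 := fun v hv => by
      obtain ⟨c, rfl⟩ := Submodule.mem_span_singleton.1 hv
      simp
    refine ⟨A ∙ b' 0, ⟨b', rfl⟩, fun σ hσ v hv => hmem _ ?_, fun σ hσ v => hmem _ ?_⟩
    · rw [hval, h10 σ hσ, hrepr v hv]; ring
    · rw [map_sub, Finsupp.sub_apply, hval, h10 σ (Galois.inertia_le_decomposition P hσ),
        h11 σ hσ]
      ring

variable {𝒪 : Type} [CommRing 𝒪] [IsLocalRing 𝒪]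

/-- Cyclotomic determinant and ordinarity at an odd prime. -/
theorem closed_det_and_isOrdinaryAt (p : ℕ) [Fact p.Prime] (hp2 : p ≠ 2) :
    Closed 𝒪 (fun A _ _ _ ρ => ρ.DetIsCyclotomic p ∧ ρ.IsOrdinaryAt p) := by
  refine Closed.of_matPred (DetOrdMat p)
    (fun A _ _ _ ρ b => det_and_isOrdinaryAt_iff hp2 ρ b) ?_ ?_ ?_
  · intro A B _ _ _ _ φ hφ M h
    exact ⟨⟨natCast_mem_maximalIdeal_map hφ h.1.1, (h.1.2.map φ).congr
        (fun σ _ => φ.map_det (M σ)) fun σ _ => by simp⟩,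
      fun P hP σ₀ hσ₀ ha => (h.2 P hP σ₀ hσ₀ ha).map φ⟩
  · intro A B P _ _ _ _ _ _ _ _ φ ψ hφ _ hinj M h₁ h₂
    refine ⟨⟨natCast_mem_maximalIdeal_comap (φ := φ) h₁.1.1, CycEq.of_injective_pair φ ψ hinj
      (isNilpotent_of_mem_maximalIdeal h₁.1.1) (isNilpotent_of_mem_maximalIdeal h₂.1.1)
      (h₁.1.2.congr (fun σ _ => (φ.map_det (M σ)).symm) fun σ _ => by simp)
      (h₂.1.2.congr (fun σ _ => (ψ.map_det (M σ)).symm) fun σ _ => by simp)⟩,
      fun Q hQ σ₀ hσ₀ ha => ?_⟩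
    have e₁ := h₁.2 Q hQ σ₀ hσ₀ ha
    have e₂ := h₂.2 Q hQ σ₀ hσ₀ ha
    constructor
    · have := e₁.isUnit_trace
      rw [mapRep_sub_one, trace_mapMatrix] at this
      exact IsLocalHom.map_nonunit _ this
    · refine matrix_eq_of_injective_pair hinj ?_ ?_
      · rw [map_mul, mapMatrix_smul, ← mapRep_sub_one, ← trace_mapMatrix, ← mapRep_sub_one]
        exact e₁.sq
      · rw [map_mul, mapMatrix_smul, ← mapRep_sub_one, ← trace_mapMatrix, ← mapRep_sub_one]
        exact e₂.sq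
    · intro σ hσ
      refine matrix_eq_of_injective_pair hinj ?_ ?_
      · rw [map_zero, map_mul, map_mul, mapMatrix_complement, ← mapRep_sub_one]
        exact e₁.stable σ hσ
      · rw [map_zero, map_mul, map_mul, mapMatrix_complement, ← mapRep_sub_one]
        exact e₂.stable σ hσ
    · intro σ hσ
      refine matrix_eq_of_injective_pair hinj ?_ ?_
      · rw [map_zero, map_mul, mapMatrix_complement, ← mapRep_sub_one, ← mapRep_sub_one]
        exact e₁.inertia σ hσ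
      · rw [map_zero, map_mul, mapMatrix_complement, ← mapRep_sub_one, ← mapRep_sub_one]
        exact e₂.inertia σ hσ
  · intro A _ _ _ M h
    have := isLocalRing_quotient_pow (A := A) 0
    refine ⟨⟨natCast_mem_maximalIdeal_comap
      (φ := Ideal.Quotient.mk (maximalIdeal A ^ (0 + 1))) (h 0).1.1,
      CycEq.of_forall_quotient fun n => ?_⟩, fun Q hQ σ₀ hσ₀ ha => ?_⟩
    · have := isLocalRing_quotient_pow (A := A) n
      exact (h n).1.2.congr (fun σ _ => ((Ideal.Quotient.mk _).map_det (M σ)).symm)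
        fun σ _ => by simp
    have e : ∀ n : ℕ, OrdEqAt Q
        (mapRep (Ideal.Quotient.mk (maximalIdeal A ^ (n + 1))) M) σ₀ := fun n => by
      have := isLocalRing_quotient_pow (A := A) n
      exact (h n).2 Q hQ σ₀ hσ₀ ha
    constructor
    · have := (e 0).isUnit_trace
      rw [mapRep_sub_one, trace_mapMatrix] at this
      have := isLocalHom_mk_pow (A := A) 0
      exact IsLocalHom.map_nonunit (f := Ideal.Quotient.mk (maximalIdeal A ^ (0 + 1))) _ ‹_›
    · refine matrix_eq_of_forall_quotient fun n => ?_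
      rw [map_mul, mapMatrix_smul, ← mapRep_sub_one, ← trace_mapMatrix, ← mapRep_sub_one]
      exact (e n).sq
    · intro σ hσ
      refine matrix_eq_of_forall_quotient fun n => ?_
      rw [map_zero, map_mul, map_mul, mapMatrix_complement, ← mapRep_sub_one]
      exact (e n).stable σ hσ
    · intro σ hσ
      refine matrix_eq_of_forall_quotient fun n => ?_
      rw [map_zero, map_mul, mapMatrix_complement, ← mapRep_sub_one, ← mapRep_sub_one]
      exact (e n).inertia σ hσ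

/-- `ordinaryCondition` is closed. -/
theorem closed_ordinaryCondition (p : ℕ) [Fact p.Prime] (hp2 : p ≠ 2) (S : Finset ℕ) :
    Closed 𝒪 (GaloisRep.ordinaryCondition 𝒪 p S) := by
  have h := (closed_det_and_isOrdinaryAt (𝒪 := 𝒪) p hp2).and
    (Closed.forall fun q : ℕ => Closed.forall fun _ : q.Prime => Closed.forall fun _ : q ∉ S =>
      closed_isUnramifiedAt (𝒪 := 𝒪) q)
  exact {
    of_isEquiv := fun _ _ _ _ _ _ he hρ =>
      and_assoc.1 (h.of_isEquiv he (and_assoc.2 hρ))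
    push := fun _ _ _ _ _ _ _ _ hB φ hφ _ hρ =>
      and_assoc.1 (h.push hB φ hφ (and_assoc.2 hρ))
    reflect := fun _ _ _ _ _ _ _ _ _ _ _ _ hA hB hP pA pB hpA hpB hinj _ h₁ h₂ =>
      and_assoc.1 (h.reflect hA hB hP pA pB hpA hpB hinj (and_assoc.2 h₁) (and_assoc.2 h₂))
    limit := fun _ _ _ _ _ hloc hres _ hall =>
      and_assoc.1 (h.limit hloc hres fun n _ hq => and_assoc.2 (hall n hq)) }

end Fermat.Agent.DefCond
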